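import Fermat.Agent.TwoAdic.AtTwo.InstanceTwo

/-!
# `SystemPoints`
-/

set_option autoImplicit false

noncomputable section

namespace Fermat.Agent.TwoAdic

/-- P7: the systems of congruent newforms are points of the signed-line ring. -/
theorem systemPoints : SystemPoints :=
  AtTwo.systemPoints_of_hasTwoData AtTwo.hasTwoData

end Fermat.Agent.TwoAdic
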