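import Fermat.Agent.TwoAdic.AtTwo.GammaTwo
import Fermat.Agent.EichlerShimura.BaseChange
import Fermat.Agent.Reduction.ModularData
import Fermat.Agent.Modular.DegreeC

/-!
# The cube root of `j(q³)` on `X₀(N)`, `9 ∣ N`, in every good characteristic

`q⁻¹ E₄(q³) ∏ (1 - q^(3n))⁻⁸` has integer coefficients and cube `j(q³)`; it is the expansion of
`γ₂(3τ)`, a modular function for `Γ₀(9)`, so it lies in the function field over `ℚ̄` and, reducing
it, over the residue fields.
-/

set_option autoImplicit false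

noncomputable section

namespace Fermat.Agent.TwoAdic.AtTwo

open ModularCurve Fermat.Agent.Modular

/-- The expansion of `γ₂(3τ)`. -/
def rootSeries : LaurentSeries ℤ :=
  HahnSeries.single (-1 : ℤ) 1 *
    qExpand ℤ 3 (HahnSeries.ofPowerSeries ℤ ℤ (eisenstein4 * (etaProd ^ 8).invOfUnit 1))

theorem jNum_eq_cube : jNum = (eisenstein4 * (etaProd ^ 8).invOfUnit 1) ^ 3 := by
  have h1 : etaProd ^ 8 * (etaProd ^ 8).invOfUnit 1 = 1 :=
    PowerSeries.mul_invOfUnit _ _ (by rw [map_pow, constantCoeff_etaProd, one_pow]; rfl)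
  have h2 := dedekindEtaUnit_mul_inv
  rw [dedekindEtaUnit] at h2
  have h3 : ((etaProd ^ 8).invOfUnit 1) ^ 3 = dedekindEtaUnitInv :=
    left_inv_eq_right_inv (a := etaProd ^ 24)
      (by rw [mul_comm, show etaProd ^ 24 = (etaProd ^ 8) ^ 3 by ring, ← mul_pow, h1, one_pow]) h2
  rw [jNum, mul_pow, h3]

theorem rootSeries_pow_three : rootSeries ^ 3 = qExpand ℤ 3 (jqModC ℤ) := by
  rw [rootSeries, mul_pow, ← map_pow (qExpand ℤ 3), ← map_pow (HahnSeries.ofPowerSeries ℤ ℤ),
    ← jNum_eq_cube, jqModC, map_mul, qExpand_single, HahnSeries.single_pow, one_pow,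
    show (jNum.map (Int.castRingHom ℤ)) = jNum by ext n; simp]
  congr 2

theorem rootSeries_map_pow_three (R : Type*) [CommRing R] :
    coeffMap (Int.castRingHom R) rootSeries ^ 3 = qExpand R 3 (jqModC R) := by
  rw [← map_pow, rootSeries_pow_three, coeffMap_qExpand, coeffMap_jqModC]

/-- A cube root is determined up to a constant. -/
theorem exists_C_mul_eq_of_pow_three {k : Type*} [Field k] [IsAlgClosed k] {x y : LaurentSeries k}
    (hx : x ≠ 0) (h : y ^ 3 = x ^ 3) : ∃ c : k, y = HahnSeries.C c * x := by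
  have hu : (y / x) ^ 3 = 1 := by rw [div_pow, h, div_self (pow_ne_zero 3 hx)]
  have hsplit := IsAlgClosed.splits (Polynomial.X ^ 3 - Polynomial.C (1 : k))
  have hroot : (y / x) ∈
      ((Polynomial.X ^ 3 - Polynomial.C (1 : k)).map (HahnSeries.C (Γ := ℤ))).roots := by
    rw [Polynomial.mem_roots']
    refine ⟨?_, by simp [hu]⟩
    rw [Polynomial.map_ne_zero_iff HahnSeries.C_injective]
    exact Polynomial.X_pow_sub_C_ne_zero (by norm_num) _
  rw [hsplit.roots_map] at hroot
  obtain ⟨c, -, hc⟩ := Multiset.mem_map.1 hroot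
  exact ⟨c, by rw [hc, div_mul_cancel₀ _ hx]⟩

/-- `γ₂(3τ)` is in the function field over `ℂ`. -/
theorem rootSeries_mem_FC {N : ℕ} [NeZero N] (hN : 9 ∣ N) :
    coeffMap (Int.castRingHom ℂ) rootSeries ∈ FC N := by
  have h3 : 3 ∣ N := (by norm_num : 3 ∣ 9).trans hN
  obtain ⟨x, hx⟩ := exists_evalMero_eq (N := N) (φ := algebraMap Hol Mero gammaTwoThree)
    (fun g hg => by rw [translate_algebraMap, smul_gammaTwoThree hN hg])
    (hasFiniteOrderAtCusps_gammaTwoThree h3)
  have hx3 : x ^ 3 = jdC N h3 := (evalMero N).toRingHom.injective <| by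
    show evalMero N (x ^ 3) = evalMero N (jdC N h3)
    rw [map_pow, hx, ← map_pow, gammaTwoThree_pow_three, evalMero_jdC]
  have hx3' : (x : LaurentSeries ℂ) ^ 3 = qExpand ℂ 3 (jqModC ℂ) := congrArg Subtype.val hx3
  have hx0 : (x : LaurentSeries ℂ) ≠ 0 := fun h => by
    rw [h, zero_pow (by norm_num)] at hx3'
    exact Reduction.transcendental_jqModC ℂ
      (((map_eq_zero _).1 hx3'.symm) ▸ isAlgebraic_zero)
  obtain ⟨c, hc⟩ := exists_C_mul_eq_of_pow_three hx0
    ((rootSeries_map_pow_three ℂ).trans hx3'.symm)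
  rw [hc, Reduction.C_eq_algebraMap]
  exact mul_mem ((FC N).algebraMap_mem c) x.2

/-- `γ₂(3τ)` is in the function field over `ℚ̄`. -/
theorem rootSeries_mem_bar {N : ℕ} [NeZero N] (hN : 9 ∣ N) :
    coeffMap (Int.castRingHom (AlgebraicClosure ℚ)) rootSeries ∈ modularFunctionFieldBar N := by
  let ι : AlgebraicClosure ℚ →ₐ[ℚ] ℂ :=
    haveI : Algebra.IsAlgebraic ℚ (AlgebraicClosure ℚ) := AlgebraicClosure.isAlgebraic ℚ
    IsAlgClosed.lift
  show _ ∈ laurentBaseChange (AlgebraicClosure ℚ) (modularFunctionFieldFull N)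
  refine EichlerShimura.mem_of_coeffMap_mem _ ι ?_
  rw [coeffMap_coeffMap,
    coeffMap_congr (g := Int.castRingHom ℂ) (RingHom.ext_int _ _),
    show laurentBaseChange ℂ (modularFunctionFieldFull N) = FC N from FL_complex_eq_FC N]
  exact rootSeries_mem_FC hN

/-- **The cube root of `j(q³)` modulo a place.** -/
theorem exists_cubeRoot {N : ℕ} [NeZero N] {ℓ : ℕ} [Fact ℓ.Prime] (hℓN : ¬ ℓ ∣ N)
    (A : ValuationSubring (AlgebraicClosure ℚ)) (hA : A.LiesOverPrime ℓ) (hN : 9 ∣ N) :
    ∃ x : modularFunctionFieldFullC (IsLocalRing.ResidueField A) N,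
      (x : LaurentSeries (IsLocalRing.ResidueField A)) ^ 3 =
        qExpand (IsLocalRing.ResidueField A) 3 (jqModC (IsLocalRing.ResidueField A)) := by
  have hy : coeffMap A.subtype (coeffMap (Int.castRingHom A) rootSeries) ∈
      modularFunctionFieldBar N := by
    rw [coeffMap_coeffMap, coeffMap_congr (g := Int.castRingHom (AlgebraicClosure ℚ))
      (RingHom.ext_int _ _)]
    exact rootSeries_mem_bar hN
  refine ⟨⟨_, Reduction.coeffMap_residue_mem_fullC N hℓN A hA _ hy⟩, ?_⟩
  show coeffMap _ (coeffMap _ rootSeries) ^ 3 = _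
  rw [coeffMap_coeffMap, coeffMap_congr (g := Int.castRingHom _) (RingHom.ext_int _ _)]
  exact rootSeries_map_pow_three _

end Fermat.Agent.TwoAdic.AtTwo
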