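import Fermat.Agent.TwoAdic.AtTwo.Residue
import Fermat.Agent.LevelP.Ordinary.Levels
import Fermat.Agent.LevelP.Model.StepB

/-!
# Classes of order `2` without residual orders are not très ramifiées

Let `δ² = x` with `x` fixed by inertia at `2` and of odd valuation. A class killed by `2`, fixed by
the inertia elements fixing `δ`, all of whose residual orders are even, is fixed by inertia: for
`τ` moving `δ` the class `τ D - D` is trivial modulo `π ^ 3` over constants of ramification `2`.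

Owner: helper34.
-/

set_option autoImplicit false

noncomputable section

namespace Fermat.Agent.TwoAdic.AtTwo

open AlgebraicCurve Fermat.Agent.Curve IsLocalRing Fermat.Agent.LevelP

local notation "Qb" => AlgebraicClosure ℚ
local notation "Γℚ" => (AlgebraicClosure ℚ ≃ₐ[ℚ] AlgebraicClosure ℚ)

variable {A : ValuationSubring Qb}

/-- The level of a ramified square root at `2`. -/
theorem exists_sqrtLevel (hA : A.LiesOverPrime 2) {δ : Qb} (hδ0 : δ ≠ 0)
    (hsq : ∀ σ ∈ A.inertiaSubgroupIn ℚ, σ (δ ^ 2) = δ ^ 2)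
    (hval : ∀ k : ℤ, A.valuation δ ≠ A.valuation (2 : Qb) ^ k) :
    ∃ L : Level 2 A, L.e = 2 ∧ L.H = A.inertiaSubgroupIn ℚ ⊓ MulAction.stabilizer Γℚ δ ∧
      ∀ τ ∈ A.inertiaSubgroupIn ℚ, τ δ ≠ δ → τ L.π = -L.π ∧
        (∀ σ ∈ L.H, τ⁻¹ * σ * τ ∈ L.H) ∧
        ∀ z : Qb, (∀ σ ∈ L.H, σ z = z) → z ∈ A →
          A.valuation (τ z - z) ≤ A.valuation L.π ^ 3 := by
  have hp := Nat.prime_two
  set I := A.inertiaSubgroupIn ℚ with hI
  set H := I ⊓ MulAction.stabilizer Γℚ δ with hH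
  have hmemH : ∀ {σ : Γℚ}, σ ∈ H ↔ σ ∈ I ∧ σ δ = δ := Iff.rfl
  have h20 : (2 : Qb) ≠ 0 := two_ne_zero
  have hv2 : A.valuation (2 : Qb) ≠ 0 := (map_ne_zero _).2 h20
  have hv2lt : A.valuation (2 : Qb) < 1 := by
    simpa using EC.Mult.valuation_natCast_lt_one (q := 2) hA
  obtain ⟨j, hj⟩ := EC.Mult.exists_zpow_of_inertia_fixed hp hA (pow_ne_zero 2 hδ0) hsq
  rw [map_pow, Nat.cast_ofNat] at hj
  obtain ⟨k, rfl⟩ : ∃ k, j = 2 * k + 1 := by
    rcases Int.even_or_odd j with ⟨k, hk⟩ | h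
    · refine absurd ((pow_left_inj₀ zero_le zero_le two_ne_zero).1 ?_) (hval k)
      rw [hj, hk, ← zpow_natCast (A.valuation (2 : Qb) ^ k), ← zpow_mul]
      congr 1
      push_cast
      ring
    · exact h
  set π := δ / (2 : Qb) ^ k with hπ
  have hπ0 : π ≠ 0 := div_ne_zero hδ0 (zpow_ne_zero _ h20)
  have hπ2 : A.valuation π ^ 2 = A.valuation (2 : Qb) := by
    rw [hπ, map_div₀, div_pow, hj, map_zpow₀, ← zpow_natCast (A.valuation (2 : Qb) ^ k), ← zpow_mul,
      ← zpow_sub₀ hv2]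
    convert zpow_one _ using 2
    push_cast
    ring
  have hπlt : A.valuation π < 1 := by
    rw [← pow_lt_one_iff_of_nonneg (n := 2) zero_le two_ne_zero, hπ2]
    exact hv2lt
  have hvπ : A.valuation π ≠ 0 := (map_ne_zero _).2 hπ0
  have hodd : ∀ l : ℤ, A.valuation π ≠ A.valuation (2 : Qb) ^ l := fun l hl => hval (l + k) (by
    have hδπ : δ = π * (2 : Qb) ^ k := by rw [hπ, div_mul_cancel₀ _ (zpow_ne_zero _ h20)]
    rw [hδπ, map_mul, hl, map_zpow₀, zpow_add₀ hv2])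
  have hneg : ∀ τ ∈ I, τ δ ≠ δ → τ δ = -δ := fun τ hτ h => by
    have h2 : (τ δ - δ) * (τ δ + δ) = 0 := by
      have := hsq τ hτ
      rw [map_pow] at this
      linear_combination this
    exact eq_neg_of_add_eq_zero_left ((mul_eq_zero.1 h2).resolve_left (sub_ne_zero.2 h))
  obtain ⟨τ₀, hτ₀, hτ₀δ⟩ : ∃ τ ∈ I, τ δ ≠ δ := by
    by_contra hcon
    push Not at hcon
    obtain ⟨l, hl⟩ := EC.Mult.exists_zpow_of_inertia_fixed hp hA hδ0 hcon
    exact hval l (by simpa using hl)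
  have hnorm : ∀ τ ∈ I, ∀ σ ∈ H, τ⁻¹ * σ * τ ∈ H := by
    intro τ hτ σ hσ
    rw [hmemH] at hσ ⊢
    refine ⟨mul_mem (mul_mem (inv_mem hτ) hσ.1) hτ, τ.injective ?_⟩
    rw [← AlgEquiv.mul_apply, ← mul_assoc, ← mul_assoc, mul_inv_cancel, one_mul, AlgEquiv.mul_apply]
    by_cases h : τ δ = δ
    · rw [h]; exact hσ.2
    · rw [hneg τ hτ h, map_neg, hσ.2]
  have hprod : ∀ τ ∈ I, ∀ τ' ∈ I, τ δ ≠ δ → τ' δ ≠ δ → τ * τ' ∈ H := by
    intro τ hτ τ' hτ' h h'
    rw [hmemH, AlgEquiv.mul_apply, hneg τ' hτ' h', map_neg, hneg τ hτ h, neg_neg]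
    exact ⟨mul_mem hτ hτ', rfl⟩
  -- decomposition of the fixed elements
  have hdec : ∀ z : Qb, (∀ σ ∈ H, σ z = z) → ∃ a b : Qb, z = a + b * π ∧
      (∀ σ ∈ I, σ a = a) ∧ (∀ σ ∈ I, σ b = b) := by
    intro z hz
    have hπneg : τ₀ π = -π := by
      rw [hπ, map_div₀, map_zpow₀, map_ofNat, hneg τ₀ hτ₀ hτ₀δ, neg_div]
    have hττ : τ₀ (τ₀ z) = z := hz _ (hprod τ₀ hτ₀ τ₀ hτ₀ hτ₀δ hτ₀δ)
    have key : ∀ σ ∈ I, (σ π = π ∧ σ z = z ∧ σ (τ₀ z) = τ₀ z) ∨
        (σ π = -π ∧ σ z = τ₀ z ∧ σ (τ₀ z) = z) := by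
      intro σ hσ
      by_cases h : σ δ = δ
      · refine Or.inl ⟨by rw [hπ, map_div₀, map_zpow₀, map_ofNat, h], hz σ ⟨hσ, h⟩, ?_⟩
        have := hz _ (hnorm τ₀ hτ₀ σ ⟨hσ, h⟩)
        rw [AlgEquiv.mul_apply, AlgEquiv.mul_apply] at this
        have h' := congrArg τ₀ this
        rwa [← AlgEquiv.mul_apply τ₀ τ₀⁻¹, mul_inv_cancel, AlgEquiv.one_apply] at h'
      · refine Or.inr ⟨by rw [hπ, map_div₀, map_zpow₀, map_ofNat, hneg σ hσ h, neg_div], ?_,
          hz _ (hprod σ hσ τ₀ hτ₀ h hτ₀δ)⟩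
        have hτinv : (τ₀⁻¹ : Γℚ) δ ≠ δ := fun h0 => hτ₀δ (by
          have h' := congrArg τ₀ h0
          rwa [← AlgEquiv.mul_apply, mul_inv_cancel, AlgEquiv.one_apply, eq_comm] at h')
        have := congrArg τ₀ (hz _ (hprod τ₀⁻¹ (inv_mem hτ₀) σ hσ hτinv h))
        rwa [← AlgEquiv.mul_apply, ← mul_assoc, mul_inv_cancel, one_mul] at this
    refine ⟨(z + τ₀ z) / 2, (z - τ₀ z) / (2 * π), by field_simp; ring, fun σ hσ => ?_,
      fun σ hσ => ?_⟩ <;> rcases key σ hσ with ⟨h1, h2, h3⟩ | ⟨h1, h2, h3⟩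
    · rw [map_div₀, map_add, h2, h3, map_ofNat]
    · rw [map_div₀, map_add, h2, h3, map_ofNat, add_comm]
    · rw [map_div₀, map_sub, map_mul, h1, h2, h3, map_ofNat]
    · rw [map_div₀, map_sub, map_mul, h1, h2, h3, map_ofNat]
      field_simp
      ring
  have hzp : ∀ b : Qb, b ≠ 0 → (∀ σ ∈ I, σ b = b) → ∃ l : ℤ, A.valuation b = A.valuation π ^ (2 * l) := by
    intro b hb hbf
    obtain ⟨l, hl⟩ := EC.Mult.exists_zpow_of_inertia_fixed hp hA hb hbf
    exact ⟨l, by rw [hl, zpow_mul, zpow_ofNat, hπ2, Nat.cast_ofNat]⟩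
  have hne : ∀ a b : Qb, a ≠ 0 → b ≠ 0 → (∀ σ ∈ I, σ a = a) → (∀ σ ∈ I, σ b = b) →
      A.valuation a ≠ A.valuation (b * π) := by
    intro a b ha hb haf hbf h
    obtain ⟨l, hl⟩ := hzp a ha haf
    obtain ⟨l', hl'⟩ := hzp b hb hbf
    refine hodd (l - l') ?_
    rw [map_mul, hl'] at h
    rw [← hπ2, ← zpow_natCast, ← zpow_mul, Nat.cast_ofNat, mul_sub, zpow_sub₀ hvπ, ← hl, h,
      mul_div_cancel_left₀ _ (zpow_ne_zero _ hvπ)]
  let L : Level 2 A :=
    { H := H
      π := π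
      e := 2
      le_inertia := inf_le_left
      fixed := fun σ hσ => by rw [hπ, map_div₀, map_zpow₀, map_ofNat, (hmemH.1 hσ).2]
      ne_zero := hπ0
      lt_one := hπlt
      value := fun z hz hzf => by
        obtain ⟨a, b, rfl, haf, hbf⟩ := hdec z hzf
        rcases eq_or_ne b 0 with rfl | hb
        · rw [zero_mul, add_zero] at hz ⊢
          obtain ⟨l, hl⟩ := hzp a hz haf
          exact ⟨_, hl⟩
        obtain ⟨l', hl'⟩ := hzp b hb hbf
        have hbπ : A.valuation (b * π) = A.valuation π ^ (2 * l' + 1) := by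
          rw [map_mul, hl', zpow_add_one₀ hvπ]
        rcases eq_or_ne a 0 with rfl | ha
        · exact ⟨_, by rw [zero_add, hbπ]⟩
        obtain ⟨l, hl⟩ := hzp a ha haf
        rcases lt_or_gt_of_ne (hne a b ha hb haf hbf) with h | h
        · exact ⟨_, by rw [Valuation.map_add_eq_of_lt_right _ h, hbπ]⟩
        · exact ⟨_, by rw [Valuation.map_add_eq_of_lt_left _ h, hl]⟩
      e_pos := two_pos
      pow_e := by rw [hπ2, Nat.cast_ofNat] }
  refine ⟨L, rfl, rfl, fun τ hτ h => ?_⟩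
  have hτπ : τ π = -π := by
    rw [hπ, map_div₀, map_zpow₀, map_ofNat, hneg τ hτ h, neg_div]
  refine ⟨hτπ, hnorm τ hτ, fun z hzf hzA => ?_⟩
  show A.valuation (τ z - z) ≤ A.valuation π ^ 3
  obtain ⟨a, b, rfl, haf, hbf⟩ := hdec z hzf
  rw [map_add, map_mul, haf τ hτ, hbf τ hτ, hτπ,
    show a + b * -π - (a + b * π) = -(2 * (b * π)) by ring, Valuation.map_neg, map_mul, ← hπ2]
  rcases eq_or_ne b 0 with rfl | hb
  · simp
  have hbπ1 : A.valuation (b * π) ≤ 1 := by
    have hz := (A.valuation_le_one_iff _).2 hzA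
    rcases eq_or_ne a 0 with rfl | ha
    · rwa [zero_add] at hz
    rcases lt_or_gt_of_ne (hne a b ha hb haf hbf) with h | h
    · rwa [Valuation.map_add_eq_of_lt_right _ h] at hz
    · rw [Valuation.map_add_eq_of_lt_left _ h] at hz
      exact h.le.trans hz
  obtain ⟨l', hl'⟩ := hzp b hb hbf
  rw [map_mul, hl', ← zpow_add_one₀ hvπ] at hbπ1 ⊢
  have hl0 : (0 : ℤ) ≤ 2 * l' + 1 := by
    by_contra hcon
    exact hbπ1.not_gt (one_lt_zpow_of_neg₀ (zero_lt_iff.2 hvπ) hπlt (by omega))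
  rw [show A.valuation π ^ 3 = A.valuation π ^ 2 * A.valuation π ^ (1 : ℤ) by
    rw [zpow_one, pow_succ]]
  exact mul_le_mul' le_rfl (zpow_le_zpow_right_of_le_one₀ (zero_lt_iff.2 hvπ) hπlt.le (by omega))

variable {F : Type*} [Field F] [Algebra Qb F] [IsFunctionField1 Qb F] {Fb : Type*} [Field Fb]
  [Algebra (ResidueField A) Fb] [IsFunctionField1 (ResidueField A) Fb]
  [IsAlgClosed (ResidueField A)] (M : TwoCompData 2 A F Fb)

/-- **Even residual orders exclude a très ramifiée action.** -/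
theorem isPrincipal_smul_sub_of_even (hA : A.LiesOverPrime 2)
    (hr : ∀ y, M.IsNode y → ∃ s : ℕ, Odd s ∧ M.r y = 12 * s)
    {δ : Qb} (hsq : ∀ σ ∈ A.inertiaSubgroupIn ℚ, σ (δ ^ 2) = δ ^ 2)
    (hval : ∀ k : ℤ, A.valuation δ ≠ A.valuation (2 : Qb) ^ k)
    {D : Divisor Qb F} (hdeg : Divisor.degree D = 0)
    (h2D : Divisor.IsPrincipal (((2 : ℕ) : ℤ) • D))
    (hfix : ∀ σ ∈ A.inertiaSubgroupIn ℚ, σ δ = δ → Divisor.IsPrincipal (M.act σ • D - D))
    (heven : ∀ Q, resDiv M 2 D Q = 0) {τ : Γℚ} (hτ : τ ∈ A.inertiaSubgroupIn ℚ) :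
    Divisor.IsPrincipal (M.act τ • D - D) := by
  by_cases hτδ : τ δ = δ
  · exact hfix τ hτ hτδ
  obtain ⟨L, he, hLH, hLτ⟩ := exists_sqrtLevel hA (fun h0 => hτδ (by rw [h0, map_zero])) hsq hval
  obtain ⟨hτπ, hnorm, hmove⟩ := hLτ τ hτ hτδ
  obtain ⟨D', hD'fix, hD'⟩ := M.descend_class L.H L.le_inertia D hdeg fun σ hσ => by
    rw [hLH] at hσ
    exact hfix σ hσ.1 hσ.2
  have haddP : ∀ {E E' : Divisor Qb F}, E.IsPrincipal → E'.IsPrincipal → (E + E').IsPrincipal :=
    fun hE hE' => Divisor.mem_principal.1 ((Divisor.principal (K := Qb) (F := F)).add_mem hE hE')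
  have hsubP : ∀ {E E' : Divisor Qb F}, E.IsPrincipal → E'.IsPrincipal → (E - E').IsPrincipal :=
    fun hE hE' => Divisor.mem_principal.1 ((Divisor.principal (K := Qb) (F := F)).sub_mem hE hE')
  have hactP : ∀ {E : Divisor Qb F}, E.IsPrincipal → (M.act τ • E).IsPrincipal :=
    fun hE => Divisor.mem_principal.1 (SemilinearAut.smul_mem_principal _ hE)
  have h2D' : Divisor.IsPrincipal (((2 : ℕ) : ℤ) • D') := by
    have := haddP h2D (Divisor.mem_principal.1
      ((Divisor.principal (K := Qb) (F := F)).zsmul_mem hD' ((2 : ℕ) : ℤ)))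
    rwa [← zsmul_add, add_sub_cancel] at this
  suffices h : Divisor.IsPrincipal (M.act τ • D' - D') by
    have := hsubP h (hsubP (hactP hD') hD')
    rw [smul_sub] at this
    convert this using 1
    abel
  set z := M.act τ • D' - D' with hz
  have hzfix : M.DivFixed L.H z := fun σ hσ => by
    rw [hz, smul_sub, TwoCompData.divFixed_act hnorm hD'fix σ hσ, hD'fix σ hσ]
  have hzdeg : Divisor.degree z = 0 := by
    rw [hz, map_sub, SemilinearAut.degree_smul, sub_self]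
  have h2z : Divisor.IsPrincipal (((2 : ℕ) : ℤ) • z) := by
    rw [hz, zsmul_sub, ← show M.act τ • (((2 : ℕ) : ℤ) • D') = ((2 : ℕ) : ℤ) • (M.act τ • D') from
      (DistribSMul.toAddMonoidHom (Divisor Qb F) (M.act τ)).map_zsmul _ D']
    exact hsubP (hactP h2D') h2D'
  refine TwoCompData.isPrincipal_of_trivial Nat.prime_two hA L hzdeg hzfix h2z
    (m₀ := 3) (by norm_num) (by rw [he]; norm_num) ?_
  -- the function of `2 D'`, normalised
  obtain ⟨f₀, hf₀, hf₀fix, hf₀ord⟩ := M.descend_principal L.H L.le_inertia _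
    (fun σ hσ => ((DistribSMul.toAddMonoidHom (Divisor Qb F) (M.act σ)).map_zsmul _ D').trans
      (congrArg (((2 : ℕ) : ℤ) • ·) (hD'fix σ hσ))) h2D'
  obtain ⟨c₀, hc₀⟩ := M.exists_vord L false hf₀ hf₀fix
  have hπ0 : algebraMap Qb F L.π ≠ 0 := (map_ne_zero _).2 L.ne_zero
  set f := f₀ / algebraMap Qb F L.π ^ c₀ with hf
  have hf0 : f ≠ 0 := div_ne_zero hf₀ (zpow_ne_zero _ hπ0)
  have hffix : M.Fixed L.H f := TwoCompData.fixed_div hf₀fix (M.fixed_pi_zpow L c₀)
  have hfv : M.VOrd L.π false f 0 := by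
    simpa using M.vord_div_pi_zpow L hc₀ c₀
  have hford : ∀ P, (((2 : ℕ) : ℤ) • D') P = P.ord f := fun P => by
    rw [hf, ord_div P hf₀ (zpow_ne_zero _ hπ0), P.ord_zpow, ord_algebraMap, hf₀ord P]
    ring
  have hfrep : IsResRep M 2 D' f := ⟨hf0, hford, hfv.valuation_eq_one⟩
  have heven' : ∀ Q : Place (ResidueField A) Fb, (2 : ℤ) ∣ Q.ord (M.residueAt false f) := by
    intro Q
    have h := resDiv_eq M hfrep Q
    rw [resDiv_congr M h2D hD' Q, heven Q, eq_comm,
      ZMod.intCast_zmod_eq_zero_iff_dvd] at h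
    exact_mod_cast h
  obtain ⟨m, hm⟩ := M.exists_vord L true hf0 hffix
  choose ψ hψfix hψ using fun y => M.exists_localGen Nat.prime_two L D' hD'fix y
  choose ν hν using fun y i => M.exists_vord L i (hψ y).1 (hψfix y)
  -- parities at the nodes
  have hnode : ∀ y, M.IsNode y → (4 : ℤ) ∣ m - 2 * (ν y true - ν y false) := by
    intro y hy
    obtain ⟨s, hs, hrs⟩ := hr y hy
    set G := ψ y / algebraMap Qb F L.π ^ ν y false with hG
    have hG0 : M.VOrd L.π false G 0 := by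
      simpa using M.vord_div_pi_zpow L (hν y false) (ν y false)
    have hG1 : M.VOrd L.π true G (ν y true - ν y false) := M.vord_div_pi_zpow L (hν y true) _
    have hGne : G ≠ 0 := hG0.ne_zero L.ne_zero
    have h := M.slope_eq Nat.prime_two L hy (ψ := f / G ^ 2) (n₀ := 0)
      (n₁ := m - 2 * (ν y true - ν y false))
      (TwoCompData.fixed_div hffix (TwoCompData.fixed_pow
        (TwoCompData.fixed_div (hψfix y) (M.fixed_pi_zpow L _)) 2))
      ⟨div_ne_zero hf0 (pow_ne_zero _ hGne), fun P hP => by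
        rw [ord_div P hf0 (pow_ne_zero _ hGne), ord_pow, hG,
          ord_div P (hψ y).1 (zpow_ne_zero _ hπ0), P.ord_zpow, ord_algebraMap, (hψ y).2 P hP,
          ← hford P, Finsupp.smul_apply, smul_eq_mul, Finsupp.zero_apply]
        push_cast
        ring⟩
      (by simpa using hfv.div (hG0.pow 2) L.ne_zero)
      (by simpa using hm.div (hG1.pow 2) L.ne_zero)
    have hV := M.mem_of_valuation_eq_one hG0.valuation_eq_one
    rw [neg_zero, zpow_zero, map_one, one_mul, TwoCompData.residueAt_div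
        (M.mem_of_valuation_eq_one hfv.valuation_eq_one)
        (by rw [map_pow, hG0.valuation_eq_one, one_pow]),
      TwoCompData.residueAt_pow hV,
      ord_div _ (TwoCompData.residueAt_ne_zero hfv.valuation_eq_one)
        (pow_ne_zero _ (TwoCompData.residueAt_ne_zero hG0.valuation_eq_one)),
      ord_pow, he, hrs, sub_zero] at h
    obtain ⟨l, hl⟩ := heven' (M.loc y false)
    rw [hl] at h
    push_cast at h
    have h' : (m - 2 * (ν y true - ν y false)) * s =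
        4 * (l - (M.loc y false).ord (M.residueAt false G)) := by linarith
    have hcop : IsCoprime (4 : ℤ) s := by
      rw [show (4 : ℤ) = ((4 : ℕ) : ℤ) from rfl, Nat.isCoprime_iff_coprime,
        show (4 : ℕ) = 2 ^ 2 from rfl]
      exact (Nat.Coprime.pow_left 2 ((Nat.coprime_two_left (n := s)).2 hs))
    exact hcop.dvd_of_dvd_mul_right ⟨_, h'⟩
  obtain ⟨y₀, hy₀⟩ := M.nonempty_node
  obtain ⟨m', rfl⟩ : ∃ m', m = 2 * m' := ⟨m / 2, by have := hnode y₀ hy₀; omega⟩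
  have hpar : ∀ y, M.IsNode y → Even (ν y true - ν y false - m') := fun y hy => by
    obtain ⟨l, hl⟩ := hnode y hy
    exact ⟨-l, by omega⟩
  -- the global correction
  set t : Bool → ℤ := fun i => if i then m' else 0 with ht
  obtain ⟨g, hgfix, hgv, hg⟩ : ∃ g : F, M.Fixed L.H g ∧ (∀ i, (M.V i).valuation g = 1) ∧
      ∀ i, M.VCongr L.π i 3 g ((-1) ^ t i) := by
    rcases Int.even_or_odd m' with hev | hodd
    · refine ⟨1, M.fixed_one, fun i => map_one _, fun i => ?_⟩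
      have : Even (t i) := by
        rw [ht]; cases i <;> simp [hev]
      rw [this.neg_one_zpow]
      exact TwoCompData.VCongr.refl 1
    · obtain ⟨ℓ, hℓfix, hℓ⟩ := M.exists_lift fun i => if i then 1 else 0
      have hℓH : M.Fixed L.H ℓ := fun σ hσ => hℓfix σ (L.le_inertia hσ)
      have h2 : A.valuation (2 / L.π ^ 2 : Qb) = 1 := by
        rw [map_div₀, map_pow, show A.valuation L.π ^ 2 = A.valuation L.π ^ L.e by rw [he],
          L.pow_e, Nat.cast_ofNat,
          div_self ((map_ne_zero _).2 two_ne_zero)]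
      have h2F : (2 : F) = algebraMap Qb F L.π ^ 2 * algebraMap Qb F (2 / L.π ^ 2) := by
        rw [← map_pow, ← map_mul, mul_div_cancel₀ _ (pow_ne_zero _ L.ne_zero), map_ofNat]
      have hu : algebraMap Qb F (2 / L.π ^ 2) ∈ M.V false ∧
          algebraMap Qb F (2 / L.π ^ 2) ∈ M.V true :=
        ⟨(M.algebraMap_mem_iff _ _).2 ((A.valuation_le_one_iff _).1 h2.le),
          (M.algebraMap_mem_iff _ _).2 ((A.valuation_le_one_iff _).1 h2.le)⟩
      have hgc : ∀ i, M.VCongr L.π i 3 (1 + 2 * ℓ) ((-1) ^ t i) := by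
        intro i
        obtain ⟨hℓV, hℓr⟩ := hℓ i
        cases i
        · obtain ⟨d, hd, e⟩ := (M.vcongr_one_iff L false hℓH M.fixed_zero hℓV (zero_mem _)).2
            (by rw [hℓr]; exact (map_zero (M.red false)).symm)
          refine ⟨algebraMap Qb F (2 / L.π ^ 2) * d, mul_mem hu.1 hd, ?_⟩
          rw [sub_zero, pow_one] at e
          rw [show t false = 0 from rfl, zpow_zero, e]
          linear_combination (algebraMap Qb F L.π * d) * h2F
        · obtain ⟨d, hd, e⟩ := (M.vcongr_one_iff L true hℓH M.fixed_one hℓV (one_mem _)).2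
            (by rw [hℓr]; exact (map_one (M.red true)).symm)
          rw [pow_one] at e
          have hodd' : ((-1 : F)) ^ t true = -1 := Odd.neg_one_zpow (by simpa [ht] using hodd)
          refine ⟨algebraMap Qb F L.π * algebraMap Qb F (2 / L.π ^ 2) ^ 2 +
              algebraMap Qb F (2 / L.π ^ 2) * d,
            add_mem (mul_mem (M.pi_mem L _) (pow_mem hu.2 2)) (mul_mem hu.2 hd), ?_⟩
          rw [hodd', show ℓ = 1 + algebraMap Qb F L.π * d by linear_combination e]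
          linear_combination (2 + algebraMap Qb F L.π * d +
            algebraMap Qb F L.π ^ 2 * algebraMap Qb F (2 / L.π ^ 2)) * h2F
      refine ⟨1 + 2 * ℓ, TwoCompData.fixed_add M.fixed_one
        (TwoCompData.fixed_mul (fun σ _ => by rw [← map_ofNat (algebraMap Qb F) 2,
          SemilinearAut.smul_algebraMap, M.baseAut_act, map_ofNat]) hℓH), fun i => ?_, hgc⟩
      exact TwoCompData.VCongr.valuation_eq_one L (by norm_num) (hgc i)
        (by rw [map_zpow₀, Valuation.map_neg, map_one, one_zpow])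
  have hg0 : g ≠ 0 := (M.V false).valuation.ne_zero_iff.1 (by rw [hgv]; exact one_ne_zero)
  refine ⟨g, hg0, hgfix, hgv, fun y => ?_⟩
  obtain ⟨c, hc⟩ : ∃ c : ℤ, ∀ i, M.On y i → Even (ν y i + c + t i) := by
    by_cases hy : M.IsNode y
    · refine ⟨ν y false, fun i _ => ?_⟩
      cases i
      · exact ⟨ν y false, by simp [ht]⟩
      · obtain ⟨l, hl⟩ := hpar y hy
        exact ⟨l + ν y false + m', by simp [ht]; omega⟩
    · by_cases h0 : M.On y false
      · refine ⟨ν y false, fun i hi => ?_⟩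
        cases i
        · exact ⟨ν y false, by simp [ht]⟩
        · exact absurd ⟨h0, hi⟩ hy
      · refine ⟨ν y true + m', fun i hi => ?_⟩
        cases i
        · exact absurd hi h0
        · exact ⟨ν y true + m', by simp [ht]; ring⟩
  have hτψ0 : M.act τ • ψ y ≠ 0 := (smul_ne_zero_iff_ne _).2 (hψ y).1
  have hsign : ∀ n : ℤ, M.Fixed L.H ((-1 : F) ^ n) := fun n =>
    TwoCompData.fixed_zpow (fun σ _ => by rw [smul_neg, smul_one]) n
  have hsign0 : ∀ n : ℤ, ((-1 : F) ^ n) ≠ 0 := fun n => zpow_ne_zero n (neg_ne_zero.2 one_ne_zero)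
  have hsignV : ∀ i (n : ℤ), ((-1 : F) ^ n) ∈ M.V i := fun i n =>
    M.mem_of_valuation_eq_one (by rw [map_zpow₀, Valuation.map_neg, map_one, one_zpow])
  have hne : M.act τ • ψ y / ψ y ≠ 0 := div_ne_zero hτψ0 (hψ y).1
  refine ⟨M.act τ • ψ y / ψ y * (-1) ^ c * g,
    TwoCompData.fixed_mul (TwoCompData.fixed_mul (TwoCompData.fixed_div
      (TwoCompData.fixed_act hnorm (hψfix y)) (hψfix y)) (hsign c)) hgfix,
    mul_ne_zero (mul_ne_zero hne (hsign0 c)) hg0, fun P hP => ?_, fun i hi => ?_⟩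
  · rw [P.ord_mul (mul_ne_zero hne (hsign0 c)) hg0, P.ord_mul hne (hsign0 c),
      ord_div P hτψ0 (hψ y).1, P.ord_zpow, ord_neg, Place.ord_one, hz, Finsupp.sub_apply,
      ((hψ y).act hτ).2 P hP, (hψ y).2 P hP]
    ring
  · set n := ν y i with hn
    set u := ψ y / algebraMap Qb F L.π ^ n with hu
    have huv : M.VOrd L.π i u 0 := by
      have := M.vord_div_pi_zpow L (hν y i) n
      rwa [sub_self] at this
    have huf : M.Fixed L.H u := TwoCompData.fixed_div (hψfix y) (M.fixed_pi_zpow L n)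
    have hu0 : u ≠ 0 := huv.ne_zero L.ne_zero
    have huinv : u⁻¹ ∈ M.V i :=
      M.mem_of_valuation_eq_one (by rw [map_inv₀, huv.valuation_eq_one, inv_one])
    obtain ⟨d, hd, e⟩ := M.vcongr_act L hτ hnorm (b := 2) hmove i huf
      (M.mem_of_valuation_eq_one huv.valuation_eq_one)
    have hρ : M.act τ • ψ y / ψ y = (-1 : F) ^ n * (M.act τ • u / u) := by
      have hψeq : ψ y = algebraMap Qb F L.π ^ n * u := by
        rw [hu, mul_div_cancel₀ _ (zpow_ne_zero _ hπ0)]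
      rw [hψeq, smul_mul', ← map_zpow₀ (algebraMap Qb F), SemilinearAut.smul_algebraMap,
        M.baseAut_act, map_zpow₀ τ, hτπ, neg_eq_neg_one_mul L.π, mul_zpow, map_mul,
        map_zpow₀ (algebraMap Qb F) (-1 : Qb), map_neg, map_one, mul_assoc,
        mul_div_assoc, mul_div_mul_left _ _ ((map_ne_zero _).2 (zpow_ne_zero _ L.ne_zero))]
    have hτu : M.VCongr L.π i 3 (M.act τ • u / u) 1 :=
      ⟨d * u⁻¹, mul_mem hd huinv, by
        rw [← mul_assoc, ← e, sub_mul, mul_inv_cancel₀ hu0, div_eq_mul_inv]⟩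
    have h1 := ((hτu.mul_left (hsignV i (n + c))).mul (hg i)
      (mul_mem (hsignV i (n + c)) (hτu.mem L.π_mem (one_mem _))) (hsignV i (t i)))
    rw [mul_one, ← zpow_add₀ (neg_ne_zero.2 (one_ne_zero (α := F))), (hc i hi).neg_one_zpow] at h1
    rw [hρ]
    convert h1 using 1
    rw [zpow_add₀ (neg_ne_zero.2 (one_ne_zero (α := F)))]
    ring

/-- **Classes with vanishing residual orders are fixed by inertia.** -/
theorem smul_eq_self_of_resHom_eq_zero (hA : A.LiesOverPrime 2)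
    (hr : ∀ y, M.IsNode y → ∃ s : ℕ, Odd s ∧ M.r y = 12 * s)
    {δ : Qb} (hsq : ∀ σ ∈ A.inertiaSubgroupIn ℚ, σ (δ ^ 2) = δ ^ 2)
    (hval : ∀ k : ℤ, A.valuation δ ≠ A.valuation (2 : Qb) ^ k)
    {x : Pic0.torsion Qb F 2}
    (hfix : ∀ σ ∈ A.inertiaSubgroupIn ℚ, σ δ = δ → M.act σ • x = x)
    (hx : resHom M 2 x = 0) {τ : Γℚ} (hτ : τ ∈ A.inertiaSubgroupIn ℚ) : M.act τ • x = x := by
  obtain ⟨D, hD⟩ := Pic0.mk_surjective (x : Pic0 Qb F)
  have key : ∀ g : Γℚ, M.act g • x = x ↔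
      Divisor.IsPrincipal (M.act g • (D : Divisor Qb F) - (D : Divisor Qb F)) := by
    intro g
    rw [Subtype.ext_iff, SemilinearAut.coe_torsion_smul, ← hD, SemilinearAut.pic0_smul_mk, Pic0.mk,
      Pic0.mk, eq_comm, QuotientAddGroup.eq, AddSubgroup.mem_addSubgroupOf, Divisor.mem_principal]
    simp [neg_add_eq_sub]
  refine (key τ).2 (isPrincipal_smul_sub_of_even M hA hr hsq hval (Divisor.mem_degZero.1 D.2)
    (isPrincipal_nsmul_rep (hD.symm ▸ x.2)) (fun σ hσ h => (key σ).1 (hfix σ hσ h)) (fun Q => ?_) hτ)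
  rw [← resHom_mk M x D hD Q, hx, Pi.zero_apply]

end Fermat.Agent.TwoAdic.AtTwo
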