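import Fermat.Agent.TwoAdic.AtTwo.Kummer
import Fermat.Agent.TwoAdic.Universal.Defs
import Mathlib.LinearAlgebra.Dual.Lemmas
import Mathlib.LinearAlgebra.FreeModule.PID
import Mathlib.NumberTheory.Padics.RingHoms
import Mathlib.RingTheory.RootsOfUnity.AlgebraicallyClosed
import Mathlib.Algebra.Algebra.ZMod

/-!
# The sign at a très ramifiée place over `2`

Let `ρ` have cyclotomic determinant and a stable line with unramified quotient, on which a
Frobenius element acts by `u`. The valuation of the Kummer class of the extension is equivariant,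
which gives `(u ^ 2 - 1) v = 0`; it is odd when the residual extension is cut out by the square
root of an element of odd valuation, so `u ^ 2 = 1`.
-/

set_option autoImplicit false

noncomputable section

open IsLocalRing

namespace Fermat.Agent.TwoAdic.AtTwo

local notation "Qb" => AlgebraicClosure ℚ
local notation "Γℚ" => (AlgebraicClosure ℚ ≃ₐ[ℚ] AlgebraicClosure ℚ)

/-- A functional on `O` lifting a functional on the residue field which is `1` at `e`. -/
theorem exists_functional (O : Type) [CommRing O] [IsDomain O] [IsLocalRing O] [CharZero O]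
    [Algebra ℤ_[2] O] [Module.Finite ℤ_[2] O] (h2 : (2 : O) ∈ maximalIdeal O)
    {e : O} (he : e ∉ maximalIdeal O) :
    ∃ l : O →ₗ[ℤ_[2]] ℤ_[2], PadicInt.toZMod (l e) = 1 ∧
      ∀ x ∈ maximalIdeal O, PadicInt.toZMod (l x) = 0 := by
  have h20 : (2 : ResidueField O) = 0 := by
    rw [← map_ofNat (residue O) 2, residue_eq_zero_iff]
    exact h2
  have : CharP (ResidueField O) 2 :=
    CharTwo.of_one_ne_zero_of_two_eq_zero one_ne_zero h20
  let _ : Algebra (ZMod 2) (ResidueField O) := ZMod.algebra _ 2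
  obtain ⟨ψ, hψ⟩ : ∃ ψ : Module.Dual (ZMod 2) (ResidueField O), ψ (residue O e) ≠ 0 := by
    by_contra! h
    exact he ((residue_eq_zero_iff e).1 ((Module.forall_dual_apply_eq_zero_iff (ZMod 2) _).1 h))
  have hψ1 : ψ (residue O e) = 1 := by
    revert hψ
    generalize ψ (residue O e) = z
    decide +revert
  have hsmul : ∀ (r : ℤ_[2]) (x : O),
      ψ (residue O (r • x)) = PadicInt.toZMod r * ψ (residue O x) := by
    intro r x
    obtain ⟨t, ht⟩ : ∃ t, r = ((PadicInt.toZMod r).val : ℤ_[2]) + 2 * t := by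
      have h : r - ((PadicInt.toZMod r).val : ℤ_[2]) ∈ RingHom.ker (PadicInt.toZMod (p := 2)) := by
        rw [RingHom.mem_ker, map_sub, map_natCast, ZMod.natCast_zmod_val, sub_self]
      rw [PadicInt.ker_toZMod, PadicInt.maximalIdeal_eq_span_p, Ideal.mem_span_singleton] at h
      obtain ⟨t, ht⟩ := h
      exact ⟨t, by push_cast at ht; linear_combination ht⟩
    conv_lhs => rw [ht]
    simp only [Algebra.smul_def, map_add, map_natCast, map_mul, map_ofNat, h20, zero_mul, add_zero]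
    rw [← nsmul_eq_mul, map_nsmul, nsmul_eq_mul, ZMod.natCast_zmod_val]
  have hinj : Function.Injective (algebraMap ℤ_[2] O) := by
    rw [injective_iff_map_eq_zero]
    intro r hr
    by_contra h0
    obtain ⟨u, hu⟩ : ∃ u : ℤ_[2]ˣ, r = u * (2 : ℤ_[2]) ^ r.valuation :=
      ⟨_, by exact_mod_cast PadicInt.unitCoeff_spec h0⟩
    rw [hu, map_mul, map_pow, map_ofNat, mul_eq_zero] at hr
    rcases hr with hr | hr
    · exact (u.isUnit.map (algebraMap ℤ_[2] O)).ne_zero hr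
    · exact pow_ne_zero _ (two_ne_zero' O) hr
  have : Module.IsTorsionFree ℤ_[2] O := Module.isTorsionFree_iff_algebraMap_injective.2 hinj
  have : Module.Free ℤ_[2] O := Module.free_of_finite_type_torsion_free'
  let bO := Module.Free.chooseBasis ℤ_[2] O
  let l : O →ₗ[ℤ_[2]] ℤ_[2] :=
    bO.constr ℤ_[2] fun i => ((ψ (residue O (bO i))).val : ℤ_[2])
  have hl : ∀ x, PadicInt.toZMod (l x) = ψ (residue O x) := by
    intro x
    conv_lhs => rw [← bO.sum_repr x]
    conv_rhs => rw [← bO.sum_repr x]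
    simp only [map_sum, map_smul, smul_eq_mul, map_mul, hsmul]
    refine Finset.sum_congr rfl fun i _ => ?_
    rw [show l (bO i) = ((ψ (residue O (bO i))).val : ℤ_[2]) from bO.constr_basis ℤ_[2] _ i,
      map_natCast, ZMod.natCast_zmod_val]
  refine ⟨l, by rw [hl, hψ1], fun x hx => by rw [hl, (residue_eq_zero_iff x).2 hx, map_zero]⟩

variable {O : Type} [CommRing O] [IsDomain O] [IsDiscreteValuationRing O] [CharZero O]
  [Algebra ℤ_[2] O] [Module.Finite ℤ_[2] O]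

/-- **The sign.** -/
theorem exists_sign (ρ : GaloisRepAdic O) (hdet : ρ.DetIsCyclotomic 2)
    (A : ValuationSubring Qb) (hA : A.LiesOverPrime 2) (F : Γℚ)
    (hF : F ∈ A.decompositionSubgroup ℚ) (b : Module.Basis (Fin 2) O ρ.V)
    (hD : ∀ σ ∈ A.decompositionSubgroup ℚ, ∀ x ∈ O ∙ b 0, ρ.ρ σ x ∈ O ∙ b 0)
    (hI : ∀ s ∈ A.inertiaSubgroupIn ℚ, ∀ x, ρ.ρ s x - x ∈ O ∙ b 0)
    (δ : Qb) (hδ : δ ^ 2 ∈ Set.range (algebraMap ℚ Qb)) {k : ℤ} (hk : Odd k)
    (hv : A.valuation δ ^ 2 = A.valuation ((2 : ℕ) : Qb) ^ k)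
    (hres : ∀ s ∈ A.inertiaSubgroupIn ℚ, s δ = δ →
      ∀ x, ρ.ρ s x - x ∈ maximalIdeal O • (⊤ : Submodule O ρ.V))
    (hne : ∃ s ∈ A.inertiaSubgroupIn ℚ,
      ∃ x, ρ.ρ s x - x ∉ maximalIdeal O • (⊤ : Submodule O ρ.V)) :
    ∃ u : O, u ^ 2 = 1 ∧ HasSignedLineAt ρ A F u := by
  classical
  obtain ⟨h2, hcyc⟩ := hdet
  rw [Nat.cast_ofNat] at h2
  -- matrix entries
  let ent : Γℚ → Fin 2 → Fin 2 → O := fun σ i j => b.repr (ρ.ρ σ (b j)) i
  have hent0 : ∀ σ ∈ A.decompositionSubgroup ℚ, ρ.ρ σ (b 0) = ent σ 0 0 • b 0 := by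
    intro σ hσ
    obtain ⟨a, ha⟩ :=
      Submodule.mem_span_singleton.1 (hD σ hσ _ (Submodule.mem_span_singleton_self (b 0)))
    have h : ent σ 0 0 = a := by simp [ent, ← ha]
    rw [h, ha]
  have hent1 : ∀ σ, ρ.ρ σ (b 1) = ent σ 0 1 • b 0 + ent σ 1 1 • b 1 := by
    intro σ
    conv_lhs => rw [← b.sum_repr (ρ.ρ σ (b 1)), Fin.sum_univ_two]
  have hdetD : ∀ σ ∈ A.decompositionSubgroup ℚ,
      LinearMap.det (ρ.ρ σ) = ent σ 0 0 * ent σ 1 1 := by
    intro σ hσ
    have h10 : ent σ 1 0 = 0 := by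
      show b.repr (ρ.ρ σ (b 0)) 1 = 0
      rw [hent0 σ hσ]
      simp
    rw [← LinearMap.det_toMatrix b, Matrix.det_fin_two]
    simp only [LinearMap.toMatrix_apply]
    show ent σ 0 0 * ent σ 1 1 - ent σ 0 1 * ent σ 1 0 = _
    rw [h10, mul_zero, sub_zero]
  have hID : ∀ {s}, s ∈ A.inertiaSubgroupIn ℚ → s ∈ A.decompositionSubgroup ℚ := fun hs =>
    EC.Mult.mem_decompositionSubgroup_of_mem_inertia hs
  have hI11 : ∀ s ∈ A.inertiaSubgroupIn ℚ, ent s 1 1 = 1 := by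
    intro s hs
    obtain ⟨a, ha⟩ := Submodule.mem_span_singleton.1 (hI s hs (b 1))
    have h := congrArg (fun z => b.repr z 1) ha
    simp [ent] at h ⊢
    linear_combination -h
  let χ : Γℚ → O := fun σ => LinearMap.det (ρ.ρ σ)
  let c : Γℚ → O := fun s => ent s 0 1
  have hs0 : ∀ s ∈ A.inertiaSubgroupIn ℚ, ρ.ρ s (b 0) = χ s • b 0 := fun s hs => by
    rw [hent0 s (hID hs)]
    simp only [χ, hdetD s (hID hs), hI11 s hs, mul_one]
  have hs1 : ∀ s ∈ A.inertiaSubgroupIn ℚ, ρ.ρ s (b 1) = c s • b 0 + b 1 := fun s hs => by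
    rw [hent1 s, hI11 s hs, one_smul]
  have hcoef : ∀ x y x' y' : O, x • b 0 + y • b 1 = x' • b 0 + y' • b 1 → x = x' := by
    intro x y x' y' h
    simpa using congrArg (fun z => b.repr z 0) h
  set α := ent F 0 0
  set β := ent F 0 1
  set u := ent F 1 1
  have hcoc : ∀ s ∈ A.inertiaSubgroupIn ℚ, ∀ t ∈ A.inertiaSubgroupIn ℚ,
      c (s * t) = c s + χ s * c t := by
    intro s hs t ht
    have h := hs1 (s * t) (mul_mem hs ht)
    rw [map_mul, Module.End.mul_apply, hs1 t ht, map_add, map_smul, hs0 s hs, hs1 s hs] at h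
    exact hcoef _ 1 _ 1 (by rw [one_smul, ← h]; module)
  have hconjF : ∀ s ∈ A.inertiaSubgroupIn ℚ,
      α * c s + β = χ (F * s * F⁻¹) * β + u * c (F * s * F⁻¹) := by
    intro s hs
    have ht := conj_mem_inertia hF hs
    have h : ρ.ρ (F * s * F⁻¹) (ρ.ρ F (b 1)) = ρ.ρ F (ρ.ρ s (b 1)) := by
      rw [← Module.End.mul_apply, ← map_mul, inv_mul_cancel_right, map_mul, Module.End.mul_apply]
    rw [hs1 s hs, map_add, map_smul, hent0 F hF, hent1 F, map_add, map_smul, map_smul,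
      hs0 _ ht, hs1 _ ht] at h
    exact (hcoef _ u _ u (Eq.trans (by module) (h.trans (by module)))).symm
  -- the residual class
  have hχ1 : ∀ s ∈ A.inertiaSubgroupIn ℚ, χ s - 1 ∈ maximalIdeal O := by
    intro s hs
    have h := hcyc 1 s 1 fun μ hμ => by
      rw [pow_one] at hμ
      rcases sq_eq_one_iff.1 hμ with rfl | rfl <;> simp
    rw [Nat.cast_one, pow_one, Nat.cast_ofNat, Ideal.mem_span_singleton] at h
    exact Ideal.mem_of_dvd _ h h2
  have hcH : ∀ s ∈ A.inertiaSubgroupIn ℚ, s δ = δ → c s ∈ maximalIdeal O := by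
    intro s hs hsδ
    have h := hres s hs hsδ (b 1)
    rw [hs1 s hs, add_sub_cancel_right] at h
    have key : ∀ z ∈ maximalIdeal O • (⊤ : Submodule O ρ.V), b.repr z 0 ∈ maximalIdeal O := by
      intro z hz
      refine Submodule.smul_induction_on hz (fun r hr w _ => ?_) fun w w' hw hw' => ?_
      · rw [map_smul, Finsupp.smul_apply, smul_eq_mul]
        exact Ideal.mul_mem_right _ _ hr
      · rw [map_add, Finsupp.add_apply]
        exact add_mem hw hw'
    simpa using key _ h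
  obtain ⟨s₀, hs₀, hc₀⟩ : ∃ s ∈ A.inertiaSubgroupIn ℚ, c s ∉ maximalIdeal O := by
    by_contra! hall
    obtain ⟨s, hs, x, hx⟩ := hne
    refine hx ?_
    rw [← b.sum_repr x, Fin.sum_univ_two, map_add, map_smul, map_smul, hs0 s hs, hs1 s hs,
      show b.repr x 0 • χ s • b 0 + b.repr x 1 • (c s • b 0 + b 1) -
          (b.repr x 0 • b 0 + b.repr x 1 • b 1) =
        (χ s - 1) • b.repr x 0 • b 0 + c s • b.repr x 1 • b 0 by module]
    exact add_mem (Submodule.smul_mem_smul (hχ1 s hs) Submodule.mem_top)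
      (Submodule.smul_mem_smul (hall s hs) Submodule.mem_top)
  have hsign : ∀ σ : Γℚ, σ δ = δ ∨ σ δ = -δ := by
    intro σ
    obtain ⟨d, hd⟩ := hδ
    refine sq_eq_sq_iff_eq_or_eq_neg.1 ?_
    rw [← map_pow, ← hd, AlgEquiv.commutes]
  refine ⟨u, ?_, ⟨O ∙ b 0, ⟨b, rfl⟩, hD, hI, fun x => ?_⟩⟩
  swap
  · rw [← b.sum_repr x, Fin.sum_univ_two, map_add, map_smul, map_smul, hent0 F hF, hent1 F]
    refine Submodule.mem_span_singleton.2
      ⟨b.repr x 0 * α + b.repr x 1 * β - u * b.repr x 0, ?_⟩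
    module
  by_contra hu
  have hy : u * u - 1 ≠ 0 := fun h => hu (by linear_combination h)
  obtain ⟨cc, t, hcc⟩ : ∃ (cc : ℕ) (t : O), (2 : O) ^ cc = (u * u - 1) * t := by
    obtain ⟨π, hπ⟩ := IsDiscreteValuationRing.exists_irreducible O
    obtain ⟨j, hj⟩ := IsDiscreteValuationRing.associated_pow_irreducible hy hπ
    rw [(IsDiscreteValuationRing.irreducible_iff_uniformizer _).1 hπ,
      Ideal.mem_span_singleton] at h2
    exact ⟨j, hj.dvd.trans (pow_dvd_pow_of_dvd h2 j)⟩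
  set n := cc + 1 with hn
  have : NeZero ((2 ^ n : ℕ) : Qb) := ⟨Nat.cast_ne_zero.2 (pow_ne_zero n two_ne_zero)⟩
  obtain ⟨ζ, hζ⟩ := HasEnoughRootsOfUnity.exists_primitiveRoot Qb (2 ^ n)
  obtain ⟨l₀, hl₀e, hl₀m⟩ := exists_functional O h2 hc₀
  let Lev : O →+ ZMod (2 ^ n) :=
    (PadicInt.toZModPow (p := 2) n).toAddMonoidHom.comp l₀.toAddMonoidHom
  let Ln : O →+ ZMod (2 ^ n) := Lev.comp (AddMonoidHom.mulLeft t)
  have hker : ∀ x : O, (2 : O) ^ n ∣ x → Lev x = 0 := by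
    rintro x ⟨r, rfl⟩
    rw [show (2 : O) ^ n * r = (2 ^ n : ℕ) • r by rw [nsmul_eq_mul]; push_cast; rfl, map_nsmul,
      nsmul_eq_mul, ZMod.natCast_self, zero_mul]
  have hdetmul : ∀ (σ : Γℚ) (a : ℕ), σ ζ = ζ ^ a → ∀ x, Lev (χ σ * x) = (a : ZMod (2 ^ n)) * Lev x := by
    intro σ a ha x
    have h := hcyc n σ a fun μ hμ => by
      obtain ⟨i, -, rfl⟩ := hζ.eq_pow_of_pow_eq_one hμ
      rw [map_pow, ha, ← pow_mul, ← pow_mul, mul_comm]
    rw [Ideal.mem_span_singleton, Nat.cast_pow, Nat.cast_ofNat] at h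
    have h' := hker _ (h.mul_right x)
    rw [sub_mul, map_sub, ← nsmul_eq_mul, map_nsmul, nsmul_eq_mul, sub_eq_zero] at h'
    exact h'
  have hdetLn : ∀ (σ : Γℚ) (a : ℕ), σ ζ = ζ ^ a → ∀ x, Ln (χ σ * x) = (a : ZMod (2 ^ n)) * Ln x :=
    fun σ a ha x => by
      show Lev (t * (χ σ * x)) = _
      rw [mul_left_comm, hdetmul σ a ha]
      rfl
  have hzeta : ∀ σ : Γℚ, ∃ a : ℕ, σ ζ = ζ ^ a := fun σ => by
    obtain ⟨a, -, ha⟩ := hζ.eq_pow_of_pow_eq_one
      (ξ := σ ζ) (by rw [← map_pow, hζ.pow_eq_one, map_one])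
    exact ⟨a, ha.symm⟩
  -- continuity
  obtain ⟨L₀, hfin, hL₀⟩ : ∃ L₀ : IntermediateField ℚ Qb, FiniteDimensional ℚ L₀ ∧
      ∀ s, (∀ x ∈ L₀, s x = x) → (2 : O) ^ n ∣ c s := by
    obtain ⟨π, hπ⟩ := IsDiscreteValuationRing.exists_irreducible O
    obtain ⟨N, hN⟩ := IsDiscreteValuationRing.associated_pow_irreducible
      (pow_ne_zero n (two_ne_zero' O)) hπ
    obtain ⟨L₀, hfin, hL₀⟩ := ρ.isAdicContinuous N
    refine ⟨L₀, hfin, fun s hs => hN.dvd.trans ?_⟩
    have key : ∀ z ∈ (maximalIdeal O ^ N) • (⊤ : Submodule O ρ.V), π ^ N ∣ b.repr z 0 := by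
      intro z hz
      refine Submodule.smul_induction_on hz (fun r hr w _ => ?_) fun w w' hw hw' => ?_
      · rw [(IsDiscreteValuationRing.irreducible_iff_uniformizer _).1 hπ,
          Ideal.span_singleton_pow, Ideal.mem_span_singleton] at hr
        rw [map_smul, Finsupp.smul_apply, smul_eq_mul]
        exact hr.mul_right _
      · rw [map_add, Finsupp.add_apply]
        exact dvd_add hw hw'
    have h := key _ (hL₀ s hs (b 1))
    simpa [c, ent] using h
  have hrad : ∀ (L : O →+ ZMod (2 ^ n)), (∀ x, (2 : O) ^ n ∣ x → L x = 0) →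
      (∀ (σ : Γℚ) (a : ℕ), σ ζ = ζ ^ a → ∀ x, L (χ σ * x) = (a : ZMod (2 ^ n)) * L x) →
      ∀ w : O, ∃ a k, IsRadical A ζ 2 (fun s => L (w * c s)) a k := by
    intro L hLker hLmul w
    refine exists_isRadical hζ Nat.prime_two hA _ (fun s hs r hr a ha => ?_) L₀ fun s _ hsL =>
      hLker _ ((hL₀ s hsL).mul_left w)
    show L (w * c (s * r)) = _
    rw [hcoc s hs r hr, mul_add, map_add, mul_left_comm, hLmul s a ha]
  have hLnker : ∀ x : O, (2 : O) ^ n ∣ x → Ln x = 0 := fun x hx => hker _ (hx.mul_left t)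
  obtain ⟨a0, k0, ha0⟩ := hrad Ln hLnker hdetLn 1
  obtain ⟨a1, k1, ha1⟩ := hrad Ln hLnker hdetLn (u * u)
  obtain ⟨a2, k2, ha2⟩ := hrad Ln hLnker hdetLn (u * α)
  obtain ⟨a3, k3, ha3⟩ := hrad Lev hker hdetmul 1
  obtain ⟨aF, haF⟩ := hzeta F
  have hdF : χ F = α * u := hdetD F hF
  -- `k2 ≡ aF * k1`, by conjugation
  have e1 : ((2 ^ n : ℕ) : ℤ) ∣ k2 - aF * k1 := by
    refine IsRadical.dvd_sub hζ Nat.prime_two hA (f := fun s => (aF : ZMod (2 ^ n)) * Ln (u * u * c s))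
      ((ha2.map hζ hF haF).mul_zetaPow hζ (-((aF : ZMod (2 ^ n)) * Ln (u * β))) fun r hr => ?_)
      (ha1.pow hζ aF)
    obtain ⟨ar, har⟩ := hzeta r
    refine ⟨ar, har, ?_⟩
    have hs : F⁻¹ * r * F ∈ A.inertiaSubgroupIn ℚ := by
      have := conj_mem_inertia (inv_mem hF) hr
      rwa [inv_inv] at this
    have h := hconjF _ hs
    rw [show F * (F⁻¹ * r * F) * F⁻¹ = r by group] at h
    have h' : Ln (u * α * c (F⁻¹ * r * F)) + Ln (u * β) =
        Ln (χ r * (u * β)) + Ln (u * u * c r) := by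
      rw [← map_add, ← map_add]
      congr 1
      linear_combination u * h
    rw [hdetLn r ar har] at h'
    linear_combination -(aF : ZMod (2 ^ n)) * h'
  -- `k2 ≡ aF * k0`, by the determinant
  have e2 : ((2 ^ n : ℕ) : ℤ) ∣ k2 - aF * k0 :=
    IsRadical.dvd_sub hζ Nat.prime_two hA ha2 ((ha0.pow hζ aF).congr fun s _ => by
      show (aF : ZMod (2 ^ n)) * Ln (1 * c s) = Ln (u * α * c s)
      rw [one_mul, ← hdetLn F aF haF, hdF]
      congr 1
      ring)
  -- the difference of `k1` and `k0`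
  have e3 : ((2 ^ n : ℕ) : ℤ) ∣ (k1 - k0) - (2 ^ cc : ℕ) * k3 :=
    IsRadical.dvd_sub hζ Nat.prime_two hA
      ((ha1.div hζ ha0 Nat.prime_two).congr fun s _ => by
        show Ln (u * u * c s) - Ln (1 * c s) = ((2 ^ cc : ℕ) : ZMod (2 ^ n)) * Lev (1 * c s)
        rw [← map_sub, ← nsmul_eq_mul, ← map_nsmul, nsmul_eq_mul]
        show Lev (t * (u * u * c s - 1 * c s)) = _
        congr 1
        push_cast
        rw [hcc]
        ring)
      (ha3.pow hζ (2 ^ cc))
  -- `aF` is odd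
  have haFodd : ¬ 2 ∣ aF := by
    rintro ⟨r, rfl⟩
    have h := hcyc n F (2 * r) fun μ hμ => by
      obtain ⟨i, -, rfl⟩ := hζ.eq_pow_of_pow_eq_one hμ
      rw [map_pow, haF, ← pow_mul, ← pow_mul, mul_comm]
    rw [Ideal.mem_span_singleton, Nat.cast_pow, Nat.cast_ofNat] at h
    have hm : (2 : O) ∣ χ F := by
      have := ((dvd_pow_self (2 : O) (Nat.succ_ne_zero cc)).trans h).add
        (Dvd.intro (r : O) (by push_cast; rfl) : (2 : O) ∣ ((2 * r : ℕ) : O))
      rwa [sub_add_cancel] at this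
    have hunit : IsUnit (χ F) :=
      (((Group.isUnit F).map ρ.ρ).map LinearMap.det)
    exact ((mem_maximalIdeal _).1 (Ideal.mem_of_dvd _ hm h2)) hunit
  -- so `k3` is even
  have hk3 : (2 : ℤ) ∣ k3 := by
    have h01 : ((2 ^ n : ℕ) : ℤ) ∣ (aF : ℤ) * (k1 - k0) := by
      have := dvd_sub e2 e1
      rwa [show k2 - aF * k0 - (k2 - aF * k1) = (aF : ℤ) * (k1 - k0) by ring] at this
    have hcop : IsCoprime ((2 ^ n : ℕ) : ℤ) (aF : ℤ) :=
      Nat.Coprime.isCoprime (Nat.Coprime.pow_left n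
        ((Nat.prime_two.coprime_iff_not_dvd).2 haFodd))
    have h := dvd_sub (hcop.dvd_of_dvd_mul_left h01) e3
    rw [sub_sub_cancel, hn, pow_succ, Nat.cast_mul] at h
    exact_mod_cast Int.dvd_of_mul_dvd_mul_left
      (by exact_mod_cast (pow_pos two_pos cc).ne' : ((2 ^ cc : ℕ) : ℤ) ≠ 0) h
  -- but it is odd, comparing with `δ`
  have hneg : ζ ^ 2 ^ cc = -1 := by
    refine IsPrimitiveRoot.eq_neg_one_of_two_right (hζ.pow (by positivity) ?_)
    rw [hn, pow_succ]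
  have hδ0 : δ ≠ 0 := by
    intro h
    rw [h, map_zero, zero_pow two_ne_zero] at hv
    exact zpow_ne_zero k (EC.Mult.valuation_natCast_ne_zero Nat.prime_two) hv.symm
  have hpar : ∀ s ∈ A.inertiaSubgroupIn ℚ,
      (zetaPow ζ (Lev (1 * c s))) ^ 2 ^ cc * δ = s δ := by
    intro s hs
    have hcast : ((Lev (1 * c s)).val : ZMod 2) = PadicInt.toZMod (l₀ (c s)) := by
      rw [one_mul]
      show ((PadicInt.toZModPow (p := 2) n (l₀ (c s))).val : ZMod 2) = _
      have h : l₀ (c s) - ((PadicInt.toZModPow (p := 2) n (l₀ (c s))).val : ℤ_[2]) ∈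
          RingHom.ker (PadicInt.toZModPow (p := 2) n) := by
        rw [RingHom.mem_ker, map_sub, map_natCast, ZMod.natCast_zmod_val, sub_self]
      rw [PadicInt.ker_toZModPow, Ideal.mem_span_singleton] at h
      obtain ⟨r, hr⟩ := h
      have h' := congrArg (PadicInt.toZMod (p := 2)) hr
      rw [map_sub, map_natCast, map_mul, map_pow, map_natCast, ZMod.natCast_self,
        zero_pow (show n ≠ 0 by omega), zero_mul, sub_eq_zero] at h'
      exact h'.symm
    rw [zetaPow, ← pow_mul, mul_comm (Lev (1 * c s)).val, pow_mul, hneg]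
    by_cases hsδ : s δ = δ
    · have h0 := hcast.trans (hl₀m _ (hcH s hs hsδ))
      rw [ZMod.natCast_eq_zero_iff_even] at h0
      rw [h0.neg_one_pow, one_mul, hsδ]
    · have hsd := (hsign s).resolve_left hsδ
      have hr : s₀ δ = -δ := (hsign s₀).resolve_left fun h => hc₀ (hcH s₀ hs₀ h)
      have hsr : (s₀⁻¹ * s) δ = δ := by
        rw [AlgEquiv.mul_apply, hsd, ← hr, ← AlgEquiv.mul_apply, inv_mul_cancel,
          AlgEquiv.one_apply]
      have hmem := mul_mem (inv_mem hs₀) hs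
      have hc' := hcoc s₀ hs₀ _ hmem
      rw [mul_inv_cancel_left] at hc'
      have h0 := hl₀m _ (Ideal.mul_mem_left _ (χ s₀) (hcH _ hmem hsr))
      have h1 : ((Lev (1 * c s)).val : ZMod 2) = 1 := by
        rw [hcast, hc', map_add, map_add, h0, hl₀e, add_zero]
      rw [ZMod.natCast_eq_one_iff_odd] at h1
      rw [h1.neg_one_pow, neg_one_mul, hsd]
  obtain ⟨j, hj⟩ := EC.Mult.exists_zpow_of_inertia_fixed Nat.prime_two hA
    (div_ne_zero (pow_ne_zero (2 ^ cc) ha3.ne_zero) hδ0) fun s hs => by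
      rw [map_div₀, map_pow, ha3.apply_eq s hs, mul_pow, ← hpar s hs]
      exact mul_div_mul_left _ _ (pow_ne_zero _ (zetaPow_ne_zero hζ _))
  have hval : A.valuation ((2 : ℕ) : Qb) ^ k3 = A.valuation ((2 : ℕ) : Qb) ^ (k + 2 * j) := by
    rw [← ha3.valuation_pow, hn, pow_succ, pow_mul,
      show A.valuation a3 ^ 2 ^ cc = A.valuation ((2 : ℕ) : Qb) ^ j * A.valuation δ by
        rw [← hj, map_div₀, map_pow, div_mul_cancel₀ _ (A.valuation.ne_zero_iff.2 hδ0)],
      mul_pow, hv, zpow_add₀ (EC.Mult.valuation_natCast_ne_zero Nat.prime_two), mul_comm 2 j,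
      zpow_mul, mul_comm]
    rfl
  have := zpow_right_injective₀ (zero_lt_iff.2 (EC.Mult.valuation_natCast_ne_zero Nat.prime_two))
    (EC.Mult.valuation_natCast_lt_one hA).ne hval
  obtain ⟨i, rfl⟩ := hk
  omega

end Fermat.Agent.TwoAdic.AtTwo
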