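import Fermat.Agent.TwoAdic.AtTwo.Line
import Fermat.Agent.TwoAdic.AtTwo.USq
import Fermat.Agent.TwoAdic.AtTwo.TresFixed

/-!
# The signed line at `2` of a representation in the torsion of `J₀(2M)`

A representation with cyclotomic determinant, realised modulo every `2 ^ n` in the torsion of the
class group of a curve with two-component reduction at `2`, and residually très ramifiée there,
has a stable line at `2` with unramified quotient on which Frobenius acts by a sign.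
-/

set_option autoImplicit false

noncomputable section

open AlgebraicCurve Fermat.Agent.Curve IsLocalRing Fermat.Agent.LevelP

namespace Fermat.Agent.TwoAdic.AtTwo

local notation "Qb" => AlgebraicClosure ℚ
local notation "Γℚ" => (AlgebraicClosure ℚ ≃ₐ[ℚ] AlgebraicClosure ℚ)

variable {A : ValuationSubring Qb} {F : Type*} [Field F] [Algebra Qb F] [IsFunctionField1 Qb F]
  {Fb : Type*} [Field Fb] [Algebra (ResidueField A) Fb] [IsFunctionField1 (ResidueField A) Fb]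
  [IsAlgClosed (ResidueField A)] (M : TwoCompData 2 A F Fb)
  {O : Type} [CommRing O] [IsDomain O] [IsDiscreteValuationRing O] [CharZero O]

/-- An element killing the maximal ideal modulo `2` but not divisible by `2`. -/
theorem exists_cofactor_two (h2 : (2 : O) ∈ maximalIdeal O) :
    ∃ ϖ a : O, maximalIdeal O = Ideal.span {ϖ} ∧ 2 = ϖ * a ∧ a ≠ 0 := by
  obtain ⟨ϖ, hϖ⟩ := IsDiscreteValuationRing.exists_irreducible O
  have h := (IsDiscreteValuationRing.irreducible_iff_uniformizer _).1 hϖ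
  rw [h, Ideal.mem_span_singleton] at h2
  obtain ⟨a, ha⟩ := h2
  refine ⟨ϖ, a, h, ha, fun h0 => two_ne_zero' O ?_⟩
  rw [ha, h0, mul_zero]

/-- **The signed line at `2`.** -/
theorem exists_signedLine_two [Algebra ℤ_[2] O] [Module.Finite ℤ_[2] O] (ρ : GaloisRepAdic O)
    (hdet : ρ.DetIsCyclotomic 2) (hA : A.LiesOverPrime 2) {Fr : Γℚ}
    (hFr : Fr ∈ A.decompositionSubgroup ℚ)
    (hr : ∀ y, M.IsNode y → ∃ s : ℕ, Odd s ∧ M.r y = 12 * s)
    {δ : Qb} (hδ : δ ^ 2 ∈ Set.range (algebraMap ℚ Qb)) {k : ℤ} (hk : Odd k)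
    (hv : A.valuation δ ^ 2 = A.valuation ((2 : ℕ) : Qb) ^ k)
    (hres : ∀ s ∈ A.inertiaSubgroupIn ℚ, s δ = δ →
      ∀ x, ρ.ρ s x - x ∈ maximalIdeal O • (⊤ : Submodule O ρ.V))
    (hne : ∃ s ∈ A.inertiaSubgroupIn ℚ,
      ∃ x, ρ.ρ s x - x ∉ maximalIdeal O • (⊤ : Submodule O ρ.V))
    (htate : ∀ n : ℕ, ∃ (m : ℕ) (f : ρ.V →+ (Fin m → Pic0 Qb F)),
      (∀ v, f v = 0 ↔ ∃ w, v = ((2 : O) ^ n) • w) ∧ (∀ v i, 2 ^ n • f v i = 0) ∧
      ∀ σ v i, f (ρ.ρ σ v) i = M.act σ • f v i) :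
    ∃ u : O, u ^ 2 = 1 ∧ HasSignedLineAt ρ A Fr u := by
  classical
  have h2 : (2 : O) ∈ maximalIdeal O := by
    simpa using hdet.1
  choose dim f hker hkill heq using htate
  let g : ∀ n, Fin (dim n) → ρ.V →+ Pic0.torsion Qb F (2 ^ n) := fun n i =>
    AddMonoidHom.mk' (fun v => ⟨f n v i, by rw [Pic0.mem_torsion, natCast_zsmul]; exact hkill n v i⟩)
      fun v w => Subtype.ext (by simp)
  have hg : ∀ n i v, ((g n i v : Pic0.torsion Qb F (2 ^ n)) : Pic0 Qb F) = f n v i :=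
    fun n i v => rfl
  let W : AddSubgroup ρ.V := ⨅ (n : ℕ) (i : Fin (dim n)), ((resHom M (2 ^ n)).comp (g n i)).ker
  have hsn : ∀ (σ : Γℚ) (m : ℕ) (y : Pic0 Qb F), M.act σ • (m • y) = m • (M.act σ • y) :=
    fun σ m y => map_nsmul (DistribSMul.toAddMonoidHom (Pic0 Qb F) (M.act σ)) m y
  have hW : ∀ s ∈ A.inertiaSubgroupIn ℚ, ∀ x, ρ.ρ s x - x ∈ W := by
    intro s hs x
    simp only [W, AddSubgroup.mem_iInf, AddMonoidHom.mem_ker, AddMonoidHom.comp_apply]
    intro n i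
    rw [map_sub, show g n i (ρ.ρ s x) = M.act s • g n i x from Subtype.ext (heq n s x i), map_sub,
      resHom_act M hs, sub_self]
  obtain ⟨τ, hτ, x, hx⟩ := hne
  obtain ⟨ϖ, a, hϖ, ha, ha0⟩ := exists_cofactor_two h2
  have hsq : ∀ σ ∈ A.inertiaSubgroupIn ℚ, σ (δ ^ 2) = δ ^ 2 := fun σ _ => by
    obtain ⟨d, hd⟩ := hδ
    rw [← hd, AlgEquiv.commutes]
  have hval : ∀ j : ℤ, A.valuation δ ≠ A.valuation (2 : Qb) ^ j := by
    intro j hj
    rw [hj, ← zpow_natCast, ← zpow_mul, Nat.cast_ofNat] at hv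
    have := zpow_right_injective₀ (zero_lt_iff.2 (EC.Mult.valuation_natCast_ne_zero Nat.prime_two))
      (EC.Mult.valuation_natCast_lt_one hA).ne (by simpa using hv)
    obtain ⟨i, rfl⟩ := hk
    omega
  have hfix : ∀ s ∈ A.inertiaSubgroupIn ℚ, s δ = δ →
      ∃ w, ρ.ρ s (a • x) - a • x = (2 : O) • w := by
    intro s hs hsδ
    rw [map_smul, ← smul_sub]
    refine Submodule.smul_induction_on (hres s hs hsδ x) (fun r hr v _ => ?_)
      fun v v' hv hv' => ?_
    · rw [hϖ, Ideal.mem_span_singleton] at hr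
      obtain ⟨r', rfl⟩ := hr
      exact ⟨r' • v, by rw [smul_smul, smul_smul, ha]; ring_nf⟩
    · obtain ⟨w, hw⟩ := hv
      obtain ⟨w', hw'⟩ := hv'
      exact ⟨w + w', by rw [smul_add, smul_add, hw, hw']⟩
  have hmove : ∀ w, ρ.ρ τ (a • x) - a • x ≠ (2 : O) • w := by
    intro w h
    rw [map_smul, ← smul_sub, ha, mul_comm, mul_smul] at h
    refine hx ?_
    rw [smul_right_injective ρ.V ha0 h]
    exact Submodule.smul_mem_smul (hϖ ▸ Ideal.mem_span_singleton_self ϖ) Submodule.mem_top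
  have hx₀ : ∀ c : ℕ, 2 ^ c • (a • x) ∉ W := by
    intro c hc
    simp only [W, AddSubgroup.mem_iInf, AddMonoidHom.mem_ker, AddMonoidHom.comp_apply] at hc
    have hc2 : ∀ v : ρ.V, 2 ^ c • v = (2 : O) ^ c • v := fun v => by
      rw [← Nat.cast_smul_eq_nsmul O, Nat.cast_pow, Nat.cast_ofNat]
    obtain ⟨i, hi⟩ : ∃ i, f (c + 1) (2 ^ c • (ρ.ρ τ (a • x) - a • x)) i ≠ 0 := by
      by_contra! h
      obtain ⟨w, hw⟩ := (hker (c + 1) _).1 (funext h)
      rw [hc2, pow_succ, mul_smul] at hw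
      exact hmove w (smul_right_injective ρ.V (pow_ne_zero c (two_ne_zero' O)) hw)
    have hn : 2 ^ (c + 1) = 2 * 2 ^ c := pow_succ' 2 c
    let z : Pic0.torsion Qb F (2 * 2 ^ c) := ⟨f (c + 1) (a • x) i, by
      rw [Pic0.mem_torsion, natCast_zsmul, ← hn]; exact hkill _ _ i⟩
    let z₂ : Pic0.torsion Qb F 2 := ⟨2 ^ c • f (c + 1) (a • x) i, by
      rw [Pic0.mem_torsion, natCast_zsmul, ← mul_nsmul', ← hn]; exact hkill _ _ i⟩
    have hz : resHom M 2 z₂ = 0 := by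
      funext Q
      rw [resHom_nsmul M z z₂ rfl Q, Pi.zero_apply]
      have h := congrFun (hc (c + 1) i) Q
      rw [map_nsmul, map_nsmul, Pi.smul_apply, Pi.zero_apply] at h
      have key : ∀ (N : ℕ) (hN : N = 2 * 2 ^ c) (t : Pic0.torsion Qb F N),
          (t : Pic0 Qb F) = f (c + 1) (a • x) i → 2 ^ c • resHom M N t Q = 0 →
          2 ^ c • resHom M (2 * 2 ^ c) z Q = 0 := by
        rintro N rfl t ht h0
        rwa [show t = z from Subtype.ext ht] at h0
      have h' := key _ hn _ (hg _ i _) h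
      obtain ⟨r, hr'⟩ := ZMod.intCast_surjective (resHom M (2 * 2 ^ c) z Q)
      rw [← hr', nsmul_eq_mul, ← Int.cast_natCast, ← Int.cast_mul,
        ZMod.intCast_zmod_eq_zero_iff_dvd, Nat.cast_mul, mul_comm (((2 : ℕ) : ℤ))] at h'
      rw [← hr', map_intCast, ZMod.intCast_zmod_eq_zero_iff_dvd]
      exact Int.dvd_of_mul_dvd_mul_left (by positivity) h'
    have hfix₂ : ∀ σ ∈ A.inertiaSubgroupIn ℚ, σ δ = δ → M.act σ • z₂ = z₂ := by
      intro σ hσ hσδ
      obtain ⟨w, hw⟩ := hfix σ hσ hσδ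
      apply Subtype.ext
      rw [SemilinearAut.coe_torsion_smul]
      show M.act σ • (2 ^ c • f (c + 1) (a • x) i) = 2 ^ c • f (c + 1) (a • x) i
      rw [hsn, ← heq, ← sub_eq_zero, ← nsmul_sub, ← Pi.sub_apply, ← map_sub,
        ← Pi.smul_apply, ← map_nsmul, hw, hc2, smul_smul, ← pow_succ,
        (hker (c + 1) _).2 ⟨w, rfl⟩, Pi.zero_apply]
    have h := congrArg Subtype.val (smul_eq_self_of_resHom_eq_zero M hA hr hsq hval hfix₂ hz hτ)
    rw [SemilinearAut.coe_torsion_smul] at h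
    refine hi ?_
    rw [map_nsmul, map_sub, Pi.smul_apply, Pi.sub_apply, heq, nsmul_sub, sub_eq_zero, ← hsn]
    exact h
  obtain ⟨b, hD, hI⟩ := exists_line ρ.ρ
    ((Module.finBasis O ρ.V).reindex (finCongr ρ.finrank_eq))
    (A.decompositionSubgroup ℚ) (A.inertiaSubgroupIn ℚ) (fun σ hσ s hs => conj_mem_inertia hσ hs)
    h2 W hW hx₀ ⟨τ, hτ, fun h => hx (by rw [h]; simp)⟩
  exact exists_sign ρ hdet A hA Fr hFr b hD hI δ hδ hk hv hres ⟨τ, hτ, x, hx⟩

end Fermat.Agent.TwoAdic.AtTwo
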