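import Fermat.Agent.Modular.GAGA

/-!
# `γ₂ = E₄/η⁸` and its character

`γ₂³ = j`; `γ₂` is fixed by `S` and multiplied by a cube root of unity by `T`, so by a character of
`SL₂(ℤ/3)` in general: it is invariant under the matrices which are diagonal modulo `3`.
-/

set_option autoImplicit false

noncomputable section

open Complex
open UpperHalfPlane hiding I
open CongruenceSubgroup Filter Asymptotics
open scoped Manifold MatrixGroups Topology Real

namespace Fermat.Agent.TwoAdic.AtTwo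

open Fermat.Agent.Modular

/-- `E₄/η⁸`. -/
def gammaTwo (z : ℍ) : ℂ := ModularForm.E₄ z / ModularForm.eta z ^ 8

theorem eta_pow_ne_zero (z : ℍ) : ModularForm.eta (z : ℂ) ^ 8 ≠ 0 :=
  pow_ne_zero _ (ModularForm.eta_ne_zero z.2)

theorem gammaTwo_pow_three (z : ℍ) : gammaTwo z ^ 3 = kleinJ z := by
  rw [gammaTwo, div_pow, ← pow_mul, kleinJ]
  rfl

theorem mdifferentiable_gammaTwo : MDiff gammaTwo := by
  have h : MDiff fun z : ℍ => ModularForm.eta (z : ℂ) ^ 8 := by
    rw [UpperHalfPlane.mdifferentiable_iff]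
    refine DifferentiableOn.congr (fun z hz =>
      ((ModularForm.differentiableAt_eta_of_mem_upperHalfPlaneSet hz).pow 8).differentiableWithinAt)
      fun z hz => ?_
    simp [ofComplex_apply_of_im_pos hz]
  rw [UpperHalfPlane.mdifferentiable_iff] at h ⊢
  exact ((UpperHalfPlane.mdifferentiable_iff.1 ModularForm.E₄.holo').div h fun z hz =>
    eta_pow_ne_zero _)

/-- A cube root of unity. -/
def omega3 : ℂ := Complex.exp (2 * π * I / 3) ^ 2

theorem omega3_pow_three : omega3 ^ 3 = 1 := by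
  rw [omega3, ← pow_mul, ← Complex.exp_nat_mul,
    show ((2 * 3 : ℕ) : ℂ) * (2 * π * I / 3) = (2 : ℕ) * (2 * π * I) by push_cast; ring,
    Complex.exp_nat_mul, Complex.exp_two_pi_mul_I, one_pow]

theorem E4_smul (g : SL(2, ℤ)) (z : ℍ) :
    ModularForm.E₄ (g • z) = UpperHalfPlane.denom (Matrix.SpecialLinearGroup.mapGL ℝ g) z ^ (4 : ℤ) *
      ModularForm.E₄ z := by
  have hg : (Matrix.SpecialLinearGroup.mapGL ℝ g) ∈ (𝒮ℒ : Subgroup (GL (Fin 2) ℝ)) := ⟨g, rfl⟩
  have h := SlashInvariantForm.slash_action_eqn'' ModularForm.E₄ hg z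
  rw [ModularGroup.sl_moeb]
  exact h

theorem gammaTwo_T (z : ℍ) : gammaTwo (ModularGroup.T • z) = omega3 * gammaTwo z := by
  have hη : ModularForm.eta (z + 1 : ℂ) ^ 8 =
      Complex.exp (2 * π * I / 3) * ModularForm.eta (z : ℂ) ^ 8 := by
    have hprod : ∀ n, ModularForm.eta_q n (z + 1 : ℂ) = ModularForm.eta_q n z := fun n => by
      rw [ModularForm.eta_q_eq_pow, ModularForm.eta_q_eq_pow,
        show 2 * π * I * ((z : ℂ) + 1) = 2 * π * I * z + 2 * π * I by ring, Complex.exp_add,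
        Complex.exp_two_pi_mul_I, mul_one]
    simp only [ModularForm.eta, hprod, mul_pow, Function.Periodic.qParam]
    rw [← mul_assoc, ← Complex.exp_nat_mul, ← Complex.exp_nat_mul, ← Complex.exp_add]
    congr 2
    push_cast
    ring
  have hE := E4_smul ModularGroup.T z
  have hc : ((ModularGroup.T • z : ℍ) : ℂ) = z + 1 := by
    rw [UpperHalfPlane.modular_T_smul, UpperHalfPlane.coe_vadd]
    push_cast
    ring
  have hd : UpperHalfPlane.denom (Matrix.SpecialLinearGroup.mapGL ℝ ModularGroup.T) (z : ℂ) = 1 := by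
    simp [UpperHalfPlane.denom, ModularGroup.T]
  have h3 : Complex.exp (2 * π * I / 3) * omega3 = 1 := by
    rw [omega3, ← pow_succ', ← Complex.exp_nat_mul,
      show ((2 + 1 : ℕ) : ℂ) * (2 * π * I / 3) = 2 * π * I by push_cast; ring,
      Complex.exp_two_pi_mul_I]
  rw [gammaTwo, gammaTwo, hE, hd, one_zpow, one_mul, hc, hη, eq_comm, mul_div_assoc', div_eq_div_iff
    (eta_pow_ne_zero z) (mul_ne_zero (exp_ne_zero _) (eta_pow_ne_zero z))]
  linear_combination (ModularForm.E₄ z * ModularForm.eta (z : ℂ) ^ 8) * h3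

theorem gammaTwo_S (z : ℍ) : gammaTwo (ModularGroup.S • z) = gammaTwo z := by
  have hE := E4_smul ModularGroup.S z
  have hd : UpperHalfPlane.denom (Matrix.SpecialLinearGroup.mapGL ℝ ModularGroup.S) (z : ℂ) = z := by
    simp [UpperHalfPlane.denom, ModularGroup.S]
  have hc : ((ModularGroup.S • z : ℍ) : ℂ) = -1 / (z : ℂ) := by
    rw [UpperHalfPlane.modular_S_smul]
    simp [neg_div]
  have hη : ModularForm.eta (-1 / (z : ℂ)) ^ 8 = (z : ℂ) ^ 4 * ModularForm.eta (z : ℂ) ^ 8 := by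
    have h := ModularForm.eta_comp_eq_csqrt_I_inv z.2
    simp only [Function.comp_apply, Pi.smul_apply, Pi.mul_apply, smul_eq_mul] at h
    have hsq : ∀ w : ℂ, w ≠ 0 → Complex.sqrt w ^ 2 = w := fun w hw => by
      rw [sqrt_eq_exp hw, ← Complex.exp_nat_mul]
      push_cast
      rw [show (2 : ℂ) * (Complex.log w / 2) = Complex.log w by ring, Complex.exp_log hw]
    rw [h, mul_pow, mul_pow, inv_pow, show (8 : ℕ) = 2 * 4 from rfl, pow_mul, pow_mul,
      hsq I I_ne_zero, hsq _ z.ne_zero, Complex.I_pow_four, inv_one, one_mul]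
  rw [gammaTwo, gammaTwo, hE, hd, hc, hη, zpow_ofNat,
    mul_div_mul_left _ _ (pow_ne_zero _ z.ne_zero)]

/-- The exponent of the character on `SL₂(ℤ/3)`. -/
def expo (a b c d : ZMod 3) : ZMod 3 := (a + d) * c + b * d * (1 - c ^ 2)

theorem expo_mul_S (a b c d : ZMod 3) :
    a * d - b * c = 1 → expo b (-a) d (-c) = expo a b c d := by
  unfold expo
  revert a b c d
  decide

theorem expo_mul_T (a b c d : ZMod 3) :
    a * d - b * c = 1 → expo a (a + b) c (c + d) = expo a b c d + 1 := by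
  unfold expo
  revert a b c d
  decide

/-- The power of `omega3` attached to a matrix. -/
def chi3 (g : SL(2, ℤ)) : ℂ := omega3 ^ (expo (g 0 0) (g 0 1) (g 1 0) (g 1 1)).val

theorem det_mod_three (g : SL(2, ℤ)) :
    ((g 0 0 : ℤ) : ZMod 3) * (g 1 1 : ℤ) - (g 0 1 : ℤ) * (g 1 0 : ℤ) = 1 := by
  have h : g 0 0 * g 1 1 - g 0 1 * g 1 0 = 1 := by rw [← Matrix.det_fin_two]; exact g.2
  exact_mod_cast congrArg (fun x : ℤ => (x : ZMod 3)) h

theorem chi3_mul_S (g : SL(2, ℤ)) : chi3 (g * ModularGroup.S) = chi3 g := by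
  have h := expo_mul_S _ _ _ _ (det_mod_three g)
  simp only [chi3, Matrix.SpecialLinearGroup.coe_mul, Matrix.mul_apply, Fin.sum_univ_two,
    ModularGroup.coe_S, Matrix.of_apply, Matrix.cons_val', Matrix.cons_val_zero,
    Matrix.cons_val_one, Matrix.empty_val', Matrix.cons_val_fin_one]
  push_cast
  simp only [mul_one, mul_zero, add_zero, zero_add, mul_neg]
  rw [h]

theorem chi3_mul_T (g : SL(2, ℤ)) : chi3 (g * ModularGroup.T) = chi3 g * omega3 := by
  have h := expo_mul_T _ _ _ _ (det_mod_three g)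
  simp only [chi3, Matrix.SpecialLinearGroup.coe_mul, Matrix.mul_apply, Fin.sum_univ_two,
    ModularGroup.coe_T, Matrix.of_apply, Matrix.cons_val', Matrix.cons_val_zero,
    Matrix.cons_val_one, Matrix.empty_val', Matrix.cons_val_fin_one]
  push_cast
  simp only [mul_one, mul_zero, add_zero]
  rw [h, ← pow_succ, pow_eq_pow_mod _ omega3_pow_three,
    pow_eq_pow_mod ((expo _ _ _ _).val + 1) omega3_pow_three, ZMod.val_add, ZMod.val_one]
  simp

theorem gammaTwo_smul (g : SL(2, ℤ)) (z : ℍ) : gammaTwo (g • z) = chi3 g * gammaTwo z := by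
  have hg : g ∈ Subgroup.closure {ModularGroup.S, ModularGroup.T} := by
    rw [SpecialLinearGroup.SL2Z_generators]
    exact Subgroup.mem_top g
  revert z
  induction hg using Subgroup.closure_induction_right with
  | one => intro z; simp [chi3, expo]
  | mul_right x _ y hy ih =>
    intro z
    rw [mul_smul, ih]
    rcases hy with rfl | rfl
    · rw [gammaTwo_S, chi3_mul_S]
    · rw [gammaTwo_T, chi3_mul_T, mul_assoc]
  | mul_inv_cancel x _ y hy ih =>
    intro z
    rw [mul_smul, ih]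
    rcases hy with rfl | rfl
    · have h := chi3_mul_S (x * ModularGroup.S⁻¹)
      rw [inv_mul_cancel_right] at h
      have h2 := gammaTwo_S (ModularGroup.S⁻¹ • z)
      rw [smul_inv_smul] at h2
      rw [h, h2]
    · have h := chi3_mul_T (x * ModularGroup.T⁻¹)
      rw [inv_mul_cancel_right] at h
      have h2 := gammaTwo_T (ModularGroup.T⁻¹ • z)
      rw [smul_inv_smul] at h2
      rw [h, h2, mul_assoc]

theorem gammaTwo_smul_eq_self (g : SL(2, ℤ)) (hb : (3 : ℤ) ∣ g 0 1) (hc : (3 : ℤ) ∣ g 1 0)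
    (z : ℍ) : gammaTwo (g • z) = gammaTwo z := by
  have hb' : ((g 0 1 : ℤ) : ZMod 3) = 0 := (ZMod.intCast_zmod_eq_zero_iff_dvd _ 3).2 hb
  have hc' : ((g 1 0 : ℤ) : ZMod 3) = 0 := (ZMod.intCast_zmod_eq_zero_iff_dvd _ 3).2 hc
  rw [gammaTwo_smul, chi3, hb', hc']
  simp [expo]

/-- `γ₂(3τ)` as a holomorphic function. -/
def gammaTwoThree : Hol :=
  ⟨fun z => gammaTwo (mulH 3 z), mdifferentiable_gammaTwo.comp
    (by simpa [affineH] using mdifferentiable_affineH 3 0 1)⟩

theorem gammaTwoThree_pow_three : gammaTwoThree ^ 3 = jHol 3 := by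
  refine Subtype.ext (funext fun z => ?_)
  show gammaTwo (mulH 3 z) ^ 3 = kleinJ (mulH 3 z)
  exact gammaTwo_pow_three _

theorem smul_gammaTwoThree {N : ℕ} (hN : 9 ∣ N) {g : SL(2, ℤ)} (hg : g ∈ Gamma0 N) :
    g • gammaTwoThree = gammaTwoThree := by
  refine Subtype.ext (funext fun z => ?_)
  show gammaTwo (mulH 3 (g⁻¹ • z)) = gammaTwo (mulH 3 z)
  have hN9 : (9 : ℤ) ∣ (g⁻¹ : SL(2, ℤ)) 1 0 := by
    have h : (N : ℤ) ∣ (g⁻¹ : SL(2, ℤ)) 1 0 :=
      (ZMod.intCast_zmod_eq_zero_iff_dvd _ _).mp (Gamma0_mem.mp (inv_mem hg))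
    exact (by exact_mod_cast hN : (9 : ℤ) ∣ N).trans h
  generalize g⁻¹ = γ at hN9 ⊢
  obtain ⟨l, hl⟩ := hN9
  have hdet : γ 0 0 * γ 1 1 - γ 0 1 * γ 1 0 = 1 := by
    rw [← Matrix.det_fin_two]; exact γ.2
  let δ : SL(2, ℤ) := ⟨!![γ 0 0, 3 * γ 0 1; 3 * l, γ 1 1],
    by rw [Matrix.det_fin_two_of]; rw [hl] at hdet; linarith⟩
  have key : mulH 3 (γ • z) = δ • mulH 3 z := by
    apply UpperHalfPlane.ext
    rw [coe_mulH, coe_specialLinearGroup_apply, coe_specialLinearGroup_apply, coe_mulH]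
    simp only [δ, eq_intCast, Matrix.of_apply, Matrix.cons_val', Matrix.cons_val_zero,
      Matrix.cons_val_one, Matrix.empty_val', Matrix.cons_val_fin_one]
    rw [hl]
    push_cast
    rw [mul_div_assoc']
    congr 1 <;> ring
  rw [key]
  exact gammaTwo_smul_eq_self δ ⟨γ 0 1, rfl⟩ ⟨l, rfl⟩ _

theorem hasFiniteOrderAtCusps_gammaTwoThree {N : ℕ} [NeZero N] (hN : 3 ∣ N) :
    HasFiniteOrderAtCusps N (algebraMap Hol Mero gammaTwoThree) := by
  intro g
  refine ⟨g • gammaTwoThree, 1, Eventually.of_forall fun z => one_ne_zero, by simp, ?_⟩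
  obtain ⟨-, m, hm⟩ := (isModFun_jLevel (N := N) 3 hN).2 g⁻¹
  refine ⟨N * m, ?_⟩
  have hN0 : (0 : ℝ) < N := by exact_mod_cast NeZero.pos N
  unfold IsBoundedAtImInfty BoundedAtFilter
  obtain ⟨C, hC⟩ := IsBigO.bound hm
  refine IsBigO.of_bound (C + 1) ?_
  filter_upwards [hC] with τ hτ
  rw [Real.norm_of_nonneg (Real.exp_pos _).le] at hτ
  set e := Real.exp (2 * π * m * τ.im) with he
  have he1 : 1 ≤ e := Real.one_le_exp (by have := τ.im_pos; positivity)
  have hcube : ‖(g • gammaTwoThree : Hol).1 τ‖ ^ 3 ≤ C * e := by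
    refine le_trans (le_of_eq ?_) hτ
    rw [← norm_pow, smul_hol_apply]
    exact congrArg _ (gammaTwo_pow_three _)
  have hle : ‖(g • gammaTwoThree : Hol).1 τ‖ ≤ (C + 1) * e := by
    rcases le_or_gt ‖(g • gammaTwoThree : Hol).1 τ‖ 1 with h | h
    · have : 0 ≤ C * e := le_trans (by positivity) hcube
      nlinarith
    · have := le_self_pow₀ h.le (by norm_num : (3 : ℕ) ≠ 0)
      nlinarith
  have hq : ‖Function.Periodic.qParam (N : ℝ) τ ^ (N * m)‖ = e⁻¹ := by
    rw [norm_pow, Function.Periodic.norm_qParam, ← Real.exp_nat_mul, he, ← Real.exp_neg]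
    congr 1
    push_cast
    rw [UpperHalfPlane.coe_im]
    field_simp
  simp only [Pi.one_apply, OneMemClass.coe_one, div_one, norm_mul, norm_one, mul_one, hq]
  rw [inv_mul_le_iff₀ (Real.exp_pos _), mul_comm]
  exact hle

end Fermat.Agent.TwoAdic.AtTwo
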