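import Fermat.Agent.TwoAdic.Switch.Galois.Places
import Fermat.Agent.RT.LocalQ.Rep
import Fermat.Agent.Deformation.Matrix

/-!
# The residual action of inertia at `2` on the switched curve

Inertia at a place over `2` acts on `V[2]` through the character of the square root of the
discriminant, non-trivially; the criterion is transported to any representation reducing to `V[2]`.
-/

set_option autoImplicit false

noncomputable section

open IsLocalRing Module
open scoped WeierstrassCurve.Affine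

namespace Fermat.Agent.TwoAdic.AtTwo

open Deformation (Mat matOf)

local notation "Qb" => AlgebraicClosure ℚ
local notation "Γℚ" => (AlgebraicClosure ℚ ≃ₐ[ℚ] AlgebraicClosure ℚ)

/-- Residual triviality in terms of displacements. -/
theorem residual_eq_one_iff {O : Type} [CommRing O] [IsLocalRing O] {k : Type} [Field k]
    {ρbar : ResidualGaloisRep k} (ρ : GaloisRepAdic O) (ψ : k →+* ResidueField O)
    (hres : ρ.residual.IsEquiv (ρbar.baseChangeAlong ψ)) (s : Γℚ) :
    ρbar.ρ s = 1 ↔ ∀ x, ρ.ρ s x - x ∈ maximalIdeal O • (⊤ : Submodule O ρ.V) := by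
  set bbar := (Module.finBasis k ρbar.V).reindex (finCongr ρbar.finrank_eq)
  obtain ⟨b, hb⟩ := Deformation.exists_lift_basis ρbar bbar ρ ψ hres
  have hrel : ∀ i j, residue O (matOf ρ.ρ b s i j) = ψ (matOf ρbar.ρ bbar s i j) := fun i j =>
    congrFun (congrFun (DFunLike.congr_fun hb s) i) j
  have hmem : ∀ z : ρ.V, z ∈ maximalIdeal O • (⊤ : Submodule O ρ.V) ↔
      ∀ i, b.repr z i ∈ maximalIdeal O := by
    intro z
    refine ⟨fun hz i => ?_, fun h => ?_⟩
    · refine Submodule.smul_induction_on hz (fun r hr v _ => ?_) fun v w hv hw => ?_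
      · rw [map_smul, Finsupp.smul_apply, smul_eq_mul]
        exact Ideal.mul_mem_right _ _ hr
      · rw [map_add, Finsupp.add_apply]
        exact add_mem hv hw
    · rw [← b.sum_repr z]
      exact Submodule.sum_mem _ fun i _ => Submodule.smul_mem_smul (h i) Submodule.mem_top
  have hent : ρbar.ρ s = 1 ↔ ∀ i j, residue O (matOf ρ.ρ b s i j) = (1 : Mat (ResidueField O)) i j := by
    rw [← RT.matOf_eq_one_iff ρbar.ρ bbar, ← (Matrix.map_injective ψ.injective).eq_iff,
      Matrix.map_one _ (map_zero _) (map_one _), ← Matrix.ext_iff]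
    simp only [Matrix.map_apply, hrel]
  rw [hent]
  have hcol : ∀ i j, b.repr (ρ.ρ s (b j) - b j) i = matOf ρ.ρ b s i j - (1 : Mat O) i j := by
    intro i j
    rw [map_sub, Finsupp.sub_apply, Deformation.matOf_apply, LinearMap.toMatrix_apply, b.repr_self,
      Finsupp.single_apply, Matrix.one_apply]
    simp [eq_comm]
  have hone : ∀ i j, residue O ((1 : Mat O) i j) = (1 : Mat (ResidueField O)) i j := fun i j => by
    rw [Matrix.one_apply, Matrix.one_apply]
    split <;> simp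
  constructor
  · intro h x
    let D : ρ.V →ₗ[O] ρ.V := ρ.ρ s - 1
    show D x ∈ _
    rw [← b.sum_repr x, map_sum]
    refine Submodule.sum_mem _ fun j _ => ?_
    rw [map_smul]
    refine Submodule.smul_mem _ _ ((hmem _).2 fun i => ?_)
    show b.repr (ρ.ρ s (b j) - b j) i ∈ _
    rw [hcol, ← residue_eq_zero_iff, map_sub, h i j, hone, sub_self]
  · intro h i j
    have := (hmem _).1 (h (b j)) i
    rw [hcol, ← residue_eq_zero_iff, map_sub, hone, sub_eq_zero] at this
    exact this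

/-- **Inertia at `2` on `V[2]`.** -/
theorem exists_tres_inertia {V : WeierstrassCurve ℤ} (hV : IsTresModel V)
    {A : ValuationSubring Qb} (hA : A.LiesOverPrime 2) :
    ∃ δ : Qb, δ ^ 2 = (V.Δ : Qb) ∧
      A.valuation δ ^ 2 = A.valuation ((2 : ℕ) : Qb) ^ (padicValInt 2 V.Δ : ℤ) ∧
      (∀ s ∈ A.inertiaSubgroupIn ℚ, s δ = δ → (residualTwo V hV.delta_ne_zero).ρ s = 1) ∧
      ∃ s ∈ A.inertiaSubgroupIn ℚ, (residualTwo V hV.delta_ne_zero).ρ s ≠ 1 := by
  have hΔ := hV.delta_ne_zero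
  have := EC.isElliptic_map_rat hΔ
  have hc4 := hV.semistable 2 Nat.prime_two hV.two_dvd
  have hodd := hV.odd_val 2 Nat.prime_two hV.two_dvd
  obtain ⟨F, hF, b, u, -, -, -, -, -, hall⟩ :=
    exists_frobenius_line_bad Nat.prime_two hΔ hV.two_dvd hc4 hodd A hA
  obtain ⟨δ, hδ⟩ := IsAlgClosed.exists_pow_nat_eq ((V.Δ : Qb)) (n := 2) (by norm_num)
  have hval : A.valuation δ ^ 2 = A.valuation ((2 : ℕ) : Qb) ^ (padicValInt 2 V.Δ : ℤ) := by
    rw [← map_pow, hδ, EC.Mult.valuation_intCast Nat.prime_two hA hΔ, zpow_natCast]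
  have hfix : ∀ s : Γℚ, (residualTwo V hΔ).ρ s = 1 → s δ = δ := by
    intro s hs
    refine apply_eq_self_of_forall_two_torsion hΔ s (fun P hP => ?_) hδ
    refine smul_eq_self_of_toMatrix_map_eq_one (b := b) ?_ P hP
    have h := (residual_ρ_eq_iff b s 1).1 (hs.trans (map_one _).symm)
    rwa [map_one, LinearMap.toMatrix_one, Matrix.map_one _ (map_zero _) (map_one _)] at h
  obtain ⟨s₁, hs₁, hmove⟩ : ∃ s₁ ∈ A.inertiaSubgroupIn ℚ, s₁ δ ≠ δ := by
    by_contra! hcon
    have hδ0 : δ ≠ 0 := fun h => hΔ (Int.cast_eq_zero.1 (show (V.Δ : Qb) = 0 by rw [← hδ, h]; simp))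
    obtain ⟨k, hk⟩ := EC.Mult.exists_zpow_of_inertia_fixed Nat.prime_two hA hδ0 hcon
    rw [hk, ← zpow_natCast, ← zpow_mul] at hval
    have h := zpow_right_injective₀
      (zero_lt_iff.2 (EC.Mult.valuation_natCast_ne_zero Nat.prime_two))
      (EC.Mult.valuation_natCast_lt_one hA).ne hval
    obtain ⟨m, hm⟩ := hodd
    omega
  refine ⟨δ, hδ, hval, fun s hs hsδ => ?_, s₁, hs₁, fun h => hmove (hfix _ h)⟩
  have htwo : ∀ σ ∈ A.inertiaSubgroupIn ℚ, ∃ t : ZMod 2,
      (LinearMap.toMatrix b b ((EC.tateRep (V.map (Int.castRingHom ℚ)) 2).ρ σ)).map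
        PadicInt.toZMod = !![1, t; 0, 1] :=
    fun σ hσ => hall σ (EC.Mult.mem_decompositionSubgroup_of_mem_inertia hσ)
  obtain ⟨t, ht⟩ := htwo s hs
  obtain ⟨t₁, ht₁⟩ := htwo s₁ hs₁
  have hcases : ∀ a c : ZMod 2, c ≠ 0 → a = 0 ∨ a = c := by decide
  have hone : (LinearMap.toMatrix b b ((EC.tateRep (V.map (Int.castRingHom ℚ)) 2).ρ 1)).map
      PadicInt.toZMod = 1 := by
    rw [map_one, LinearMap.toMatrix_one, Matrix.map_one _ (map_zero _) (map_one _)]
  have ht10 : t₁ ≠ 0 := by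
    intro h0
    refine hmove (hfix _ ?_)
    refine (?_ : (residualTwo V hΔ).ρ s₁ = (residualTwo V hΔ).ρ 1).trans (map_one _)
    refine (residual_ρ_eq_iff b s₁ 1).2 ?_
    rw [hone, ht₁, h0]
    decide
  rcases hcases t t₁ ht10 with rfl | rfl
  · refine (?_ : (residualTwo V hΔ).ρ s = (residualTwo V hΔ).ρ 1).trans (map_one _)
    refine (residual_ρ_eq_iff b s 1).2 ?_
    rw [hone, ht]
    decide
  · exfalso
    have heq : (residualTwo V hΔ).ρ s = (residualTwo V hΔ).ρ s₁ :=
      (residual_ρ_eq_iff b s s₁).2 (ht.trans ht₁.symm)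
    have h := hfix (s⁻¹ * s₁) (by rw [map_mul, ← heq, ← map_mul, inv_mul_cancel, map_one])
    rw [AlgEquiv.mul_apply] at h
    refine hmove ?_
    have := congrArg s h
    rwa [← AlgEquiv.mul_apply, mul_inv_cancel, AlgEquiv.one_apply, hsδ] at this

end Fermat.Agent.TwoAdic.AtTwo
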