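import Fermat.Agent.TwoAdic.AtTwo.Form
import Fermat.Agent.TwoAdic.AtTwo.Residual
import Fermat.Agent.BadPrime.TateEigen
import Fermat.Agent.BadPrime.Raise
import Fermat.Agent.LevelP.X0.Fields
import Fermat.Agent.RT.FreyResidual
import Fermat.Agent.RT.LocalAtP.Conditions
import Fermat.Agent.TwoAdic.Points.Main

/-!
# The signed line at `2` of a newform

A newform whose representation reduces to `V[2]`, `V` the switched curve, has the same
representation, after a finite extension of scalars, in the torsion of `J₀(2M)` with `M` odd and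
divisible by `9`; so it has a signed line at `2`.
-/

set_option autoImplicit false
set_option linter.style.haveILetI false

noncomputable section

open AlgebraicCurve IsLocalRing Polynomial CongruenceSubgroup ModularFormClass ModularCurve Module

namespace Fermat.Agent.TwoAdic.AtTwo

open BadPrime (HasEigenRep IsNewformTateRep)
open Deformation (matOf mapRep)

local notation "Qb" => AlgebraicClosure ℚ
local notation "Γℚ" => (AlgebraicClosure ℚ ≃ₐ[ℚ] AlgebraicClosure ℚ)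

/-- The geometric input: two-component data of `X₀(2M)` at a place over `2`, for odd `M` divisible
by `9`, with thickness `12 ×` odd at every node. -/
def HasTwoData : Prop :=
  ∀ (M : ℕ) [NeZero M], ¬ 2 ∣ M → 9 ∣ M →
    ∀ (A : ValuationSubring Qb) [IsAlgClosed (ResidueField A)], A.LiesOverPrime 2 →
      ∃ T : LevelP.TwoCompData 2 A (modularFunctionFieldBar (M * 2))
          (modularFunctionFieldFullC (ResidueField A) M),
        T.act = LevelP.X0.act 2 M ∧ ∀ y, T.IsNode y → ∃ s : ℕ, Odd s ∧ T.r y = 12 * s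

/-- A representation realised in `J₀(2M)` reducing to `V[2]` has a signed line at `2`. -/
theorem exists_signedLine_of_realised (hgeo : HasTwoData) {V : WeierstrassCurve ℤ}
    (hV : IsTresModel V) {M : ℕ} [NeZero M] (hM2 : ¬ 2 ∣ M) (hM9 : 9 ∣ M)
    {O : Type} [CommRing O] [IsDomain O] [IsDiscreteValuationRing O] [CharZero O]
    [Algebra ℤ_[2] O] [Module.Finite ℤ_[2] O] (ρ : GaloisRepAdic O) (hdet : ρ.DetIsCyclotomic 2)
    (ψ : ResidueField ℤ_[2] →+* ResidueField O)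
    (hres : ρ.residual.IsEquiv ((residualTwo V hV.delta_ne_zero).baseChangeAlong ψ))
    (htate : ∀ n : ℕ, ∃ (m : ℕ) (f : ρ.V →+ (Fin m → JZero (M * 2))),
      (∀ v, f v = 0 ↔ ∃ w, v = ((2 : O) ^ n) • w) ∧ (∀ v i, 2 ^ n • f v i = 0) ∧
      ∀ σ v i, f (ρ.ρ σ v) i = σ • f v i)
    {P : ValuationSubring Qb} (hP : P.LiesOverPrime 2) {F : Γℚ}
    (hF : F ∈ P.decompositionSubgroup ℚ) :
    ∃ u : O, u ^ 2 = 1 ∧ HasSignedLineAt ρ P F u := by
  haveI : IsAlgClosed (ResidueField P) := EC.isAlgClosed_residueField P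
  obtain ⟨T, hact, hr⟩ := hgeo M hM2 hM9 P hP
  obtain ⟨δ, hδ, hv, hfix, s, hs, hne⟩ := exists_tres_inertia hV hP
  refine exists_signedLine_two T ρ hdet hP hF hr ⟨(V.Δ : ℚ), by rw [hδ, map_intCast]⟩
    (k := (padicValInt 2 V.Δ : ℤ)) (by exact_mod_cast hV.odd_val 2 Nat.prime_two hV.two_dvd) hv
    (fun s hs hsδ => (residual_eq_one_iff ρ ψ hres s).1 (hfix s hs hsδ))
    ⟨s, hs, not_forall.1 fun h => hne ((residual_eq_one_iff ρ ψ hres s).2 h)⟩ fun n => ?_
  obtain ⟨m, f, h0, hn, heq⟩ := htate n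
  refine ⟨m, f, h0, hn, fun σ v i => ?_⟩
  rw [heq, hact]
  rfl

/-- **The line at `2` of a newform, after a finite extension of scalars.** -/
theorem exists_extension_signedLine (hrep : ∀ (N : ℕ) [NeZero N], HasEigenRep N)
    (hgeo : HasTwoData) (hirr : ResidualIrreducible)
    (V : WeierstrassCurve ℤ) (hV : IsTresModel V) (L : ℕ) [NeZero L]
    (h4L : ¬ 2 ^ 2 ∣ L) (g : CuspForm (Gamma0 L) 2) (hg : g.IsNewform)
    (O : Type) [CommRing O] [IsDomain O] [IsDiscreteValuationRing O]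
    [IsAdicComplete (maximalIdeal O) O] [Finite (ResidueField O)] [CharZero O]
    [Algebra ℤ_[2] O] [Module.Finite ℤ_[2] O] (h2 : ((2 : ℕ) : O) ∈ maximalIdeal O)
    (ρ : GaloisRepAdic O) (htate : IsNewformTateRep g 2 ρ)
    (ψ : ResidueField ℤ_[2] →+* ResidueField O)
    (hres : ρ.residual.IsEquiv ((residualTwo V hV.delta_ne_zero).baseChangeAlong ψ))
    (P : ValuationSubring Qb) (hP : P.LiesOverPrime 2) (F : Γℚ)
    (hF : F ∈ P.decompositionSubgroup ℚ) :
    ∃ (O' : Type) (_ : CommRing O') (_ : IsDomain O') (_ : IsDiscreteValuationRing O')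
      (_ : CharZero O') (j : O →+* O') (hj : IsLocalHom j), Function.Injective j ∧
      ∃ u : O', u ^ 2 = 1 ∧ HasSignedLineAt (ρ.baseChangeAlong j hj) P F u := by
  classical
  obtain ⟨L₀, hL₀, hLL₀⟩ : ∃ L₀, ¬ 2 ∣ L₀ ∧ L ∣ L₀ * 2 := by
    by_cases h : 2 ∣ L
    · obtain ⟨L₀, rfl⟩ := h
      exact ⟨L₀, fun h' => h4L (by rw [pow_two]; exact mul_dvd_mul_left 2 h'), (mul_comm 2 L₀).dvd⟩
    · exact ⟨L, h, dvd_mul_right L 2⟩
  set M := L₀ * 9 with hM
  have hM2 : ¬ 2 ∣ M := fun h => (Nat.prime_two.dvd_mul.1 h).elim hL₀ (by norm_num)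
  haveI : NeZero M := ⟨Nat.mul_ne_zero (fun h => hL₀ (h ▸ dvd_zero 2)) (by norm_num)⟩
  set R := M * 2 with hR
  haveI : NeZero R := ⟨Nat.mul_ne_zero (NeZero.ne M) two_ne_zero⟩
  have hLR : L ∣ R := hLL₀.trans (mul_dvd_mul_right (dvd_mul_right L₀ 9) 2)
  set S := R.primeFactors with hS
  have hRS : ∀ q : ℕ, q.Prime → q ∣ R → q ∈ S := fun q hq h =>
    Nat.mem_primeFactors.2 ⟨hq, h, NeZero.ne R⟩
  have h2S : 2 ∈ S := hRS 2 Nat.prime_two (dvd_mul_left 2 M)
  obtain ⟨φ, χ, hφ, hker, hchar, -⟩ := htate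
  -- the old eigenform of level `R` and its system
  obtain ⟨g', hg', hgg'⟩ := BadPrime.exists_eigenform_level_of_dvd hLR hg.1
  obtain ⟨χ', -, hT', -⟩ := BadPrime.exists_eigenChar hg' (↑S : Set ℕ)
  have hmem : ∀ t, χ' t ∈ φ.range := fun t =>
    BadPrime.eigenChar_mem_subring χ' φ.range (fun ℓ hℓ hℓR hℓS => by
        rw [hT' ℓ hℓ hℓR hℓS, hgg' ℓ hℓ hℓR, ← hφ ℓ hℓ fun h => hℓR (h.trans hLR)]
        exact ⟨_, rfl⟩)
      (fun q hq hqR hqS => absurd (Finset.mem_coe.2 (hRS q hq hqR)) hqS) t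
  have hle : χ'.range ≤ φ.range := by
    rintro _ ⟨t, rfl⟩
    exact hmem t
  have hkerle : RingHom.ker φ.rangeRestrict ≤ RingHom.ker χ := fun t ht => by
    rw [hker, RingHom.mem_ker]
    exact congrArg Subtype.val ((RingHom.mem_ker).1 ht)
  let iota₀ : φ.range →+* O :=
    φ.rangeRestrict.liftOfSurjective φ.rangeRestrict_surjective ⟨χ, hkerle⟩
  let iota : χ'.range →+* O := iota₀.comp (Subring.inclusion hle)
  obtain ⟨φ', -, -, O'', i1, i2, i3, i4, i5, i6, i7, i8, i9, hinj, χ'', -, hχ''⟩ :=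
    BadPrime.exists_full_system hg' S hRS O χ' hT' iota
  have h2'' : ((2 : ℕ) : O'') ∈ maximalIdeal O'' := by
    rw [← map_natCast (algebraMap O O'') 2]
    exact map_nonunit _ _ h2
  obtain ⟨hK, hG, hFr⟩ := hrep R
  obtain ⟨ρ'', hρ'', -, htate''⟩ := EichlerShimura.exists_galoisRepAdic_of_eigensystem_tate R 2 hK
    (hFr 2 Nat.prime_two) hG O'' h2'' χ''
  have hcyc : ρ''.DetIsCyclotomic 2 := by
    refine Density.detIsCyclotomic_of_charpoly_frobenius ρ'' 2 Nat.prime_two h2'' S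
      fun ℓ hℓ hℓS A hA σ hσ => ?_
    exact ⟨_, hρ'' ℓ hℓ (fun h => hℓS (hRS ℓ hℓ h)) (fun h => hℓS (h ▸ h2S)) A hA σ hσ⟩
  -- residual representation of the extension of `ρ`
  set j := algebraMap O O'' with hj
  set ρ₁ := ρ.baseChangeAlong j i9 with hρ₁
  let ψ' : ResidueField ℤ_[2] →+* ResidueField O'' :=
    (ResidueField.map j).comp ψ
  have hres₁ : ρ₁.residual.IsEquiv ((residualTwo V hV.delta_ne_zero).baseChangeAlong ψ') := by
    set bbar := (Module.finBasis _ (residualTwo V hV.delta_ne_zero).V).reindex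
      (finCongr (residualTwo V hV.delta_ne_zero).finrank_eq)
    obtain ⟨b, hb⟩ := Deformation.exists_lift_basis _ bbar ρ ψ hres
    obtain ⟨b₁, hb₁⟩ := Deformation.exists_basis_baseChangeAlong ρ b j i9
    refine Deformation.residual_isEquiv_of_map_eq _ bbar ρ₁ b₁ ψ' ?_
    rw [hb₁]
    refine MonoidHom.ext fun σ => Matrix.ext fun a c => ?_
    have h := congrFun (congrFun (DFunLike.congr_fun hb σ) a) c
    show residue O'' (j (matOf ρ.ρ b σ a c)) = ResidueField.map j (ψ (matOf _ bbar σ a c))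
    rw [← ResidueField.map_residue]
    exact congrArg (ResidueField.map j) h
  have habs : ρ₁.residual.IsAbsolutelyIrreducible := by
    obtain ⟨E⟩ := hres₁
    exact Density.isAbsolutelyIrreducible_of_isEquiv ⟨E.symm⟩
      (RT.isAbsolutelyIrreducible_baseChangeAlong ψ' _ (hirr V hV))
  obtain ⟨E⟩ : ρ₁.IsEquiv ρ'' := by
    refine Density.adic_isEquiv_of_frobenius ρ₁ ρ'' S habs fun ℓ hℓ hℓS A hA σ hσ => ?_
    have hℓR : ¬ ℓ ∣ R := fun h => hℓS (hRS ℓ hℓ h)
    have hℓ2 : ℓ ≠ 2 := fun h => hℓS (h ▸ h2S)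
    have hℓS' : ℓ ∉ (↑S : Set ℕ) := fun h => hℓS (Finset.mem_coe.1 h)
    have hℓL : ¬ ℓ ∣ L := fun h => hℓR (h.trans hLR)
    rw [hρ'' ℓ hℓ hℓR hℓ2 A hA σ hσ, hχ'' ℓ hℓ hℓR hℓS']
    have hval : (iota.comp χ'.rangeRestrict) (CuspForm.heckeAlgebra.T hℓ hℓR hℓS') =
        χ (CuspForm.heckeAlgebra.T hℓ hℓL (Set.notMem_empty ℓ)) := by
      have h1 : Subring.inclusion hle (χ'.rangeRestrict (CuspForm.heckeAlgebra.T hℓ hℓR hℓS')) =
          φ.rangeRestrict (CuspForm.heckeAlgebra.T hℓ hℓL (Set.notMem_empty ℓ)) := by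
        refine Subtype.ext ?_
        show χ' _ = φ _
        rw [hT' ℓ hℓ hℓR hℓS', hgg' ℓ hℓ hℓR, hφ]
      show iota₀ _ = _
      rw [h1]
      exact RingHom.liftOfRightInverse_comp_apply _ _ _ _ _
    rw [hval]
    obtain ⟨b₁, hb₁⟩ := Deformation.exists_basis_baseChangeAlong ρ (Deformation.someBasis ρ) j i9
    rw [← LinearMap.charpoly_toMatrix (ρ₁.ρ σ) b₁, ← Deformation.matOf_apply, hb₁]
    show ((matOf ρ.ρ (Deformation.someBasis ρ) σ).map j).charpoly = _
    rw [Matrix.charpoly_map, Deformation.matOf_apply, LinearMap.charpoly_toMatrix,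
      hchar ℓ hℓ hℓL hℓ2 A hA σ hσ]
    simp [hj]
  letI : Algebra ℤ_[2] O'' := (j.comp (algebraMap ℤ_[2] O)).toAlgebra
  haveI : IsScalarTower ℤ_[2] O O'' := IsScalarTower.of_algebraMap_eq fun _ => rfl
  haveI : Module.Finite ℤ_[2] O'' := Module.Finite.trans O O''
  refine ⟨O'', i1, i2, i3, i6, j, i9, hinj,
    exists_signedLine_of_realised hgeo hV hM2 (dvd_mul_left 9 L₀) ρ₁
      (Density.adic_detIsCyclotomic_of_isEquiv ⟨E.symm⟩ hcyc) ψ' hres₁ (fun n => ?_) hP hF⟩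
  obtain ⟨m, f, h0, hn, heq⟩ := htate'' n
  refine ⟨m, f.comp E.toLinearEquiv.toAddEquiv.toAddMonoidHom, fun v => ?_,
    fun v i => hn _ i, fun σ v i => ?_⟩
  · show f (E.toLinearEquiv v) = 0 ↔ _
    rw [h0, Nat.cast_ofNat]
    constructor
    · rintro ⟨w, hw⟩
      exact ⟨E.toLinearEquiv.symm w, E.toLinearEquiv.injective
        (by rw [hw, map_smul, LinearEquiv.apply_symm_apply])⟩
    · rintro ⟨w, rfl⟩
      exact ⟨E.toLinearEquiv w, map_smul _ _ _⟩
  · show f (E.toLinearEquiv _) i = σ • f (E.toLinearEquiv v) i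
    rw [E.map_apply, heq]

/-- The line at `2` of `SystemPoints`, from the geometric data at `2`. -/
theorem signedLineAtTwoExt_of (hgeo : HasTwoData) : SignedLineAtTwoExt := by
  intro V hV L _ h4L g hg O _ _ _ _ _ _ _ _ _ h2O ρ _ htate ψ hres P hP F _ hFD _
  obtain ⟨O', i1, i2, i3, -, j, hj, hjinj, hu⟩ :=
    exists_extension_signedLine BadPrime.hasEigenRep_modular hgeo residualIrreducible V hV L h4L g hg
      O h2O ρ htate ψ hres P hP F hFD
  exact ⟨O', i1, i2, inferInstance, j, hj, hjinj, hu⟩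

/-- `SystemPoints`, from the geometric data at `2`. -/
theorem systemPoints_of_hasTwoData (hgeo : HasTwoData) : SystemPoints :=
  systemPoints_of_signedLineAtTwoExt (signedLineAtTwoExt_of hgeo)

end Fermat.Agent.TwoAdic.AtTwo
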