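import Fermat.Agent.TwoAdic.AtTwo.UnitTwo
import Fermat.Agent.TwoAdic.AtTwo.Newform
import Fermat.Agent.LevelP.X0.Main

/-!
# The two-component data of `X₀(2M)` at `2`, `9 ∣ M`: thickness `12` at every node
-/

set_option autoImplicit false
set_option synthInstance.maxHeartbeats 400000

noncomputable section

namespace Fermat.Agent.TwoAdic.AtTwo

open AlgebraicCurve ModularCurve IsLocalRing Fermat.Agent.BadPrime Fermat.Agent.LevelP

local notation "Qb" => AlgebraicClosure ℚ

local instance fact_prime_two' : Fact (Nat.Prime 2) := ⟨Nat.prime_two⟩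

/-- Data whose unit is `Δ(τ)/Δ(2τ)`, with residues along the first component given by
`q`-expansions, have thickness `12`. -/
theorem thickness_eq_twelve {M : ℕ} [NeZero M] (hM2 : ¬ 2 ∣ M) (hM9 : 9 ∣ M)
    {A : ValuationSubring Qb} [IsAlgClosed (ResidueField A)] (hA : A.LiesOverPrime 2)
    (T : TwoCompData 2 A (modularFunctionFieldBar (M * 2))
      (modularFunctionFieldFullC (ResidueField A) M))
    (hred : ∀ (f : modularFunctionFieldBar (M * 2))
      (g : modularFunctionFieldFullC (ResidueField A) M),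
      (∃ h : f ∈ T.V false, T.red false ⟨f, h⟩ = g) ↔
        HasGaussRed (residue A) (f : LaurentSeries Qb) (g : LaurentSeries (ResidueField A)))
    (hw : (T.w : LaurentSeries Qb) = coeffEmb Qb (modularUnitSeries 2)) {y : T.Pt}
    (hy : T.IsNode y) : T.r y = 12 := by
  have hwu : T.w = X0.unitW 2 M := Subtype.ext hw
  have hu : X0.unitW 2 M ∈ X0.V A 2 M false :=
    (ValuationSubring.valuation_le_one_iff _ _).1 (X0.unitW_false A 2 M).le
  have h := X0.hasGaussRed_red A 2 M hM2 hA false ⟨_, hu⟩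
  rw [red_unitW_eq_jRes A M hM2 hA hu, X0.toFirst_false] at h
  obtain ⟨hm, he⟩ := (hred T.w (X0.jResM A M)).2 (by rw [hwu]; exact h)
  have hr := T.red_w_ord y hy.1 hy.2 hm
  rw [he] at hr
  have hpos : 0 < T.r y := T.r_pos y hy.1 hy.2
  have h12 := jRes_ord_eq_twelve A M hM2 hA hM9 (T.loc y false) (hr ▸ by exact_mod_cast hpos)
  exact_mod_cast hr.symm.trans h12

/-- **The geometric input.** -/
theorem hasTwoData : HasTwoData := by
  intro M _ hM2 hM9 A _ hA
  obtain ⟨T, hact, -, hred, hw, -⟩ := X0.exists_twoCompData' A 2 M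
    ⟨fun _ => (by norm_num : 3 ∣ 9).trans hM9, fun h => absurd h (by norm_num)⟩ hM2 hA
  exact ⟨T, hact, fun y hy => ⟨1, odd_one, by
    rw [thickness_eq_twelve hM2 hM9 hA T hred hw hy]⟩⟩

end Fermat.Agent.TwoAdic.AtTwo
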