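import Fermat.Agent.LevelP.X0.Tame

/-!
# The supersingular multiplicities of `j` in characteristic `2`

For a `j`-line cover with the ramification of `X₀(N)` in characteristic zero, whose reduction has
the same genus, the places over `j̄ = 0` in characteristic `2` all have multiplicity `12`, as soon as
`4 ord(dj̄) + 4 ≥ 5 ord(j̄)` and `12 ∣ ord j̄` there: the degree of `dj̄` leaves no room.
-/

set_option autoImplicit false

noncomputable section

namespace Fermat.Agent.TwoAdic.AtTwo

open AlgebraicCurve Fermat.Agent.Curve Fermat.Agent.Reduction Fermat.Agent.LevelP.X0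
  KaehlerDifferential
open scoped IntermediateField

variable {K : Type*} [Field K] {k : Type*} [Field k] {A : ValuationSubring K}
variable {F : Type*} [Field F] [Algebra K F] {Fb : Type*} [Field Fb] [Algebra k Fb]
variable {π : A →+* k}
variable [IsAlgClosed K] [CharZero K] [IsAlgClosed k] [IsFunctionField1 K F]
  [IsFunctionField1 k Fb]

/-- Characteristic zero: `6 div(dj) ≤ 4 (j = 0) + 3 (j = 1728) - 6 (j = ∞) - 6 poles`. -/
theorem six_ordDifferential_le {j : F} (htr : Transcendental K j)
    (h0 : ∀ P : Place K F, 0 < P.ord j → P.ord j ≤ 3)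
    (h1728 : ∀ P : Place K F, 0 < P.ord (j - algebraMap K F 1728) →
      P.ord (j - algebraMap K F 1728) ≤ 2)
    (hram : ∀ c : K, c ≠ 0 → c ≠ 1728 → ∀ P : Place K F, 0 < P.ord (j - algebraMap K F c) →
      P.ord (j - algebraMap K F c) = 1) (P : Place K F) :
    6 * P.ordDifferential (D K F j) ≤ 4 * zeroDiv j (0 : K) P + 3 * zeroDiv j (1728 : K) P -
      6 * poleDivisor j P - 6 * oneDiv (poleDivisor (K := K) j).support P := by
  classical
  simp only [zeroDiv_apply htr, poleDivisor_apply, oneDiv_apply, Finsupp.mem_support_iff]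
  by_cases h : P.ord j < 0
  · rw [if_pos h, if_pos h, if_pos (by omega : max (-P.ord j) 0 ≠ 0),
      ordDifferential_D_of_ne_zero P (Int.cast_ne_zero.mpr h.ne)]
    omega
  rw [if_neg h, if_neg h, if_neg (by omega : ¬ max (-P.ord j) 0 ≠ 0)]
  obtain ⟨c, hc, hc'⟩ := exists_value htr P (not_lt.mp h)
  have hd : P.ordDifferential (D K F j) = P.ord (j - algebraMap K F c) - 1 := by
    rw [← ord_D_sub c, ordDifferential_D_of_ne_zero P (Int.cast_ne_zero.mpr hc.ne')]
  rw [hd]
  rcases eq_or_ne c 0 with rfl | hc0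
  · have e1 : j - algebraMap K F 0 = j := by rw [map_zero, sub_zero]
    rw [hc' 1728 (by norm_num), e1]
    rw [e1] at hc
    have := h0 P hc
    omega
  rcases eq_or_ne c 1728 with rfl | hc1
  · rw [hc' 0 (by norm_num)]
    have := h1728 P hc
    omega
  · rw [hc' 0 hc0.symm, hc' 1728 hc1.symm, hram c hc0 hc1 P hc]
    omega

omit [IsAlgClosed K] [CharZero K] [IsFunctionField1 K F] in
/-- Characteristic `2`: `6 div(dj̄) ≥ 7 (j̄ = 0) - 6 (j̄ = ∞) - 6 poles`, strictly where the
multiplicity exceeds `12`. -/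
theorem le_six_ordDifferential {jb : Fb} (htr : Transcendental k jb) (hωb : D k Fb jb ≠ 0)
    (h5 : ∀ Q : Place k Fb, 0 < Q.ord jb → 5 * Q.ord jb ≤ 4 * Q.ordDifferential (D k Fb jb) + 4)
    (h12 : ∀ Q : Place k Fb, 0 < Q.ord jb → (12 : ℤ) ∣ Q.ord jb) (Q : Place k Fb) :
    7 * zeroDiv jb (0 : k) Q - 6 * poleDivisor jb Q - 6 * oneDiv (poleDivisor (K := k) jb).support Q
        + (if 12 < Q.ord jb then 1 else 0) ≤ 6 * Q.ordDifferential (D k Fb jb) := by
  classical
  simp only [zeroDiv_apply htr, poleDivisor_apply, oneDiv_apply, Finsupp.mem_support_iff,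
    map_zero, sub_zero]
  have hb := sub_one_le_ordDifferential_D Q hωb
  by_cases h : Q.ord jb < 0
  · rw [if_pos h, if_pos (by omega : max (-Q.ord jb) 0 ≠ 0), if_neg (by omega)]
    omega
  rw [if_neg h, if_neg (by omega : ¬ max (-Q.ord jb) 0 ≠ 0)]
  rcases eq_or_lt_of_le (not_lt.mp h) with h' | h'
  · have := ordDifferential_D_nonneg Q (mem_of_ord_nonneg Q h'.le)
    rw [if_neg (by omega)]
    omega
  · have := h5 Q h'
    obtain ⟨s, hs⟩ := h12 Q h'
    split_ifs <;> omega

variable (G : GaussData π F Fb)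

include G in
/-- **All supersingular multiplicities are `12`.** -/
theorem ord_eq_twelve {j : F} {jb : Fb} (hj : (j, jb) ∈ G.graph) (htr : Transcendental k jb)
    (hn : Module.finrank k⟮jb⟯ Fb = Module.finrank K⟮j⟯ F)
    (hsep : Algebra.IsSeparable k⟮jb⟯ Fb)
    (h0 : ∀ P : Place K F, 0 < P.ord j → P.ord j ≤ 3)
    (h1728 : ∀ P : Place K F, 0 < P.ord (j - algebraMap K F 1728) →
      P.ord (j - algebraMap K F 1728) ≤ 2)
    (hram : ∀ c : K, c ≠ 0 → c ≠ 1728 → ∀ P : Place K F, 0 < P.ord (j - algebraMap K F c) →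
      P.ord (j - algebraMap K F c) = 1)
    (hgenus : genusFF K F ≤ genusFF k Fb)
    (h5 : ∀ Q : Place k Fb, 0 < Q.ord jb → 5 * Q.ord jb ≤ 4 * Q.ordDifferential (D k Fb jb) + 4)
    (h12 : ∀ Q : Place k Fb, 0 < Q.ord jb → (12 : ℤ) ∣ Q.ord jb)
    (Q : Place k Fb) (hQ : 0 < Q.ord jb) : Q.ord jb = 12 := by
  classical
  have : CharZero F := charZero_of_injective_algebraMap (algebraMap K F).injective
  have htrj : Transcendental K j := G.transcendental_of_mem hj htr
  have : FiniteDimensional K⟮j⟯ F := finiteDimensional_adjoin htrj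
  obtain ⟨r, hdeg, hr⟩ := G.exists_placeCompat hgenus
  have hg : genusFF k Fb = genusFF K F := le_antisymm G.genusFF_le hgenus
  have hω : D K F j ≠ 0 := D_ne_zero_of_isSeparable htrj
  have hωb : D k Fb jb ≠ 0 := D_ne_zero_of_isSeparable htr
  have hjb0 : jb ≠ 0 := by simpa using sub_algebraMap_ne_zero htr 0
  have hmd : Finsupp.mapDomain r (divisorOf j) = divisorOf (K := k) jb :=
    Finsupp.ext fun Q => by rw [hr j jb hj hjb0 (divisorOf j) (fun P => rfl) Q, divisorOf_apply]
  have hsub : (poleDivisor (K := k) jb).support ⊆ (poleDivisor (K := K) j).support.image r := by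
    intro Q hQ'
    refine Finsupp.mapDomain_support ?_
    rw [Finsupp.mem_support_iff, poleDivisor_apply] at hQ'
    rw [Finsupp.mem_support_iff]
    have hs : 0 ≤ Finsupp.mapDomain r (divisorOf j + poleDivisor (K := K) j) :=
      Finsupp.mapDomain_nonneg fun P => by
        simp only [Finsupp.coe_zero, Pi.zero_apply, Finsupp.add_apply, divisorOf_apply,
          poleDivisor_apply]
        omega
    have hs' := hs Q
    rw [Finsupp.mapDomain_add, hmd] at hs'
    simp only [Finsupp.coe_zero, Pi.zero_apply, Finsupp.add_apply, divisorOf_apply] at hs'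
    omega
  have hcard := (Finset.card_le_card hsub).trans Finset.card_image_le
  have dK : (6 : ℤ) • canonicalDivisorOf hω ≤ (4 : ℤ) • zeroDiv j (0 : K) +
      (3 : ℤ) • zeroDiv j (1728 : K) - (6 : ℤ) • poleDivisor j -
      (6 : ℤ) • oneDiv (poleDivisor (K := K) j).support := fun P => by
    simpa [canonicalDivisorOf_apply] using six_ordDifferential_le htrj h0 h1728 hram P
  have dk : (7 : ℤ) • zeroDiv jb (0 : k) - (6 : ℤ) • poleDivisor jb -
      (6 : ℤ) • oneDiv (poleDivisor (K := k) jb).support +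
      Finsupp.single Q (if 12 < Q.ord jb then 1 else 0) ≤ (6 : ℤ) • canonicalDivisorOf hωb := by
    intro P
    have h := le_six_ordDifferential htr hωb h5 h12 P
    rcases eq_or_ne P Q with rfl | hne
    · simpa [canonicalDivisorOf_apply] using h
    · have : (0 : ℤ) ≤ if 12 < P.ord jb then 1 else 0 := by split_ifs <;> norm_num
      simp only [Finsupp.add_apply, Finsupp.sub_apply, Finsupp.smul_apply, smul_eq_mul,
        canonicalDivisorOf_apply, Finsupp.single_eq_of_ne hne, add_zero]
      linarith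
  have e1 := degree_mono dK
  have e2 := degree_mono dk
  simp only [map_add, map_sub, map_zsmul, smul_eq_mul, Divisor.degree_single, deg_eq_one,
    degree_zeroDiv htrj, degree_zeroDiv htr, degree_poleDivisor htrj, degree_poleDivisor htr,
    degree_oneDiv, degree_canonicalDivisorOf hω, degree_canonicalDivisorOf hωb, hg, hn,
    Nat.cast_one, mul_one] at e1 e2
  obtain ⟨s, hs⟩ := h12 Q hQ
  split_ifs at e2 <;> omega

end Fermat.Agent.TwoAdic.AtTwo
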