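import Fermat.Agent.Reduction.DifferentSmall

/-!
# The zeros of `j̄` on `X₀(N)` in characteristic `2`, `3 ∣ N`

With `t² = Δ(q)/Δ(q³)` one has `j t³ = (t + 1)⁴` and `j t² = j(q³)`: at a zero of `j` the function
`t` is a unit, the multiplicity is `4 ord(t + 1)`, `4 ord(dj) + 4 ≥ 5 ord j`, and a cube root of
`j(q³)` makes it divisible by `3`.
-/

set_option autoImplicit false

noncomputable section

namespace Fermat.Agent.TwoAdic.AtTwo

open AlgebraicCurve ModularCurve Fermat.Agent.Curve Fermat.Agent.Reduction KaehlerDifferential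
open Fermat.Agent.Igusa (HasLead deltaSeries)

variable (N : ℕ) [NeZero N] (k : Type) [Field k] [IsAlgClosed k]

omit [NeZero N] in
/-- The square root of `Δ(q)/Δ(q³)`. -/
theorem exists_sqrtRatio [CharP k 2] (h3 : 3 ∣ N) : ∃ t : modularFunctionFieldFullC k N,
    jRes k N * t ^ 3 = (t + 1) ^ 4 ∧ D k (modularFunctionFieldFullC k N) t ≠ 0 ∧
      ((jRes k N * t ^ 2 : modularFunctionFieldFullC k N) : LaurentSeries k) =
        qExpand k 3 (jqModC k) := by
  have hk2 : (2 : k) = 0 := CharP.cast_eq_zero k 2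
  have hk3 : ((3 : ℕ) : k) ≠ 0 := by rw [ne_eq, CharP.cast_eq_zero_iff k 2]; norm_num
  have hid := SmallId.deltaSeries_mul_qExpand_three k
  have hjd := SmallId.jqModC_mul_deltaSeries_eq_one (R := k)
    (by linear_combination (120 : k) * hk2)
  set x := deltaSeries k with hx
  set y := qExpand k 3 (deltaSeries k) with hy
  have hlx : HasLead x 1 (1 : k) := Igusa.hasLead_deltaSeries
  have hly : HasLead y 3 (1 : k) := by simpa using hlx.qExpand 3
  have hx0 : x ≠ 0 := hlx.ne_zero one_ne_zero
  have hy0 : y ≠ 0 := hly.ne_zero one_ne_zero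
  have hj : jqModC k = x⁻¹ := eq_inv_of_mul_eq_one_left hjd
  have h2L : (2 : LaurentSeries k) = 0 := by
    rw [← map_ofNat (HahnSeries.C (Γ := ℤ) (R := k)) 2, hk2, map_zero]
  set E : modularFunctionFieldFullC k N := ⟨x / y, div_qExpand_deltaSeries_mem N k 3 h3 hk3⟩
    with hE
  set t : modularFunctionFieldFullC k N := (E + 1) ^ 2 / (jRes k N * E) with htdef
  have hcj : ((jRes k N : modularFunctionFieldFullC k N) : LaurentSeries k) = x⁻¹ := hj
  have hct : (t : LaurentSeries k) = (x / y + 1) ^ 2 / (x⁻¹ * (x / y)) := by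
    simp only [htdef, hE, IntermediateField.coe_div, IntermediateField.coe_mul,
      IntermediateField.coe_pow, IntermediateField.coe_add, IntermediateField.coe_one, hcj]
  have hsq : (t : LaurentSeries k) ^ 2 = x / y := by
    rw [hct]
    field_simp
    linear_combination (-1 : LaurentSeries k) * hid +
      (2 * x ^ 3 * y + 3 * x ^ 2 * y ^ 2 + 2 * x * y ^ 3) * h2L
  refine ⟨t, ?_, D_ne_zero_of_qDeriv fun h0 => ?_, ?_⟩
  · apply Subtype.ext
    simp only [IntermediateField.coe_mul, IntermediateField.coe_pow, IntermediateField.coe_add,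
      IntermediateField.coe_one, hcj]
    have h4 : ((t : LaurentSeries k) + 1) ^ 4 = (x / y + 1) ^ 2 := by
      rw [← hsq]
      linear_combination (2 * (t : LaurentSeries k) ^ 3 + 2 * (t : LaurentSeries k) ^ 2
        + 2 * (t : LaurentSeries k)) * h2L
    rw [h4, pow_succ, hsq, hct]
    field_simp
  · have hl2 : HasLead ((t : LaurentSeries k) ^ 2) (-2) (1 : k) := by
      rw [hsq]
      exact SmallId.hasLead_congr (SmallId.hasLead_div hlx hly one_ne_zero) (by norm_num) (div_one 1)
    have ht0 : (t : LaurentSeries k) ≠ 0 := fun e => hl2.ne_zero one_ne_zero (by rw [e]; simp)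
    have hlt : HasLead (t : LaurentSeries k) (t : LaurentSeries k).order
        ((t : LaurentSeries k).coeff (t : LaurentSeries k).order) :=
      ⟨fun n hn => HahnSeries.coeff_eq_zero_of_lt_order hn, rfl⟩
    have hne := HahnSeries.coeff_order_eq_zero.not.2 ht0
    have ho := (hlt.pow 2).index_unique (pow_ne_zero 2 hne) hl2 one_ne_zero
    have h1 : (t : LaurentSeries k).order = -1 := by omega
    have h3' := congrArg (fun z : LaurentSeries k => z.coeff (-1)) h0
    simp only [qDeriv_coeff, HahnSeries.coeff_zero, Int.cast_neg, Int.cast_one, neg_mul, one_mul,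
      neg_eq_zero] at h3'
    rw [h1] at hne
    exact hne h3'
  · rw [IntermediateField.coe_mul, IntermediateField.coe_pow, hcj, hsq, hj, map_inv₀, ← hy]
    field_simp

variable {N} {k}

section
variable {E : Type*} [Field E] [Algebra k E] [IsFunctionField1 k E]

/-- At a zero of `j`, for `j t³ = (t + 1)⁴` in characteristic `2`. -/
theorem ord_of_sqrtRatio [CharP k 2] {j t : E} (h : j * t ^ 3 = (t + 1) ^ 4) (ht : D k E t ≠ 0)
    (Q : Place k E) (hQ : 0 < Q.ord j) :
    Q.ord t = 0 ∧ Q.ord j = 4 * Q.ord (t + 1) ∧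
      5 * Q.ord j ≤ 4 * Q.ordDifferential (D k E j) + 4 := by
  have ht0 : t ≠ 0 := fun e => ht (by rw [e, map_zero])
  have ht1 : t + 1 ≠ 0 := fun e => ht (by
    rw [eq_neg_of_add_eq_zero_left e, map_neg, Derivation.map_one_eq_zero, neg_zero])
  have hj0 : j ≠ 0 := fun e => by simp [e] at hQ
  have h4F : (4 : E) = 0 := by
    have h2 : (2 : k) = 0 := CharP.cast_eq_zero k 2
    rw [← map_ofNat (algebraMap k E) 4, show (4 : k) = 2 * 2 by norm_num, h2, mul_zero, map_zero]
  have hD : D k E j = (j / t) • D k E t := by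
    have h1 := congrArg (D k E) h
    rw [Derivation.leibniz, Derivation.leibniz_pow, Derivation.leibniz_pow,
      ← Nat.cast_smul_eq_nsmul E 4, Nat.cast_ofNat, h4F, zero_smul,
      ← Nat.cast_smul_eq_nsmul E 3, smul_smul, smul_smul] at h1
    have hm' : ((3 : ℕ) : E) = -1 := eq_neg_of_add_eq_zero_left (by push_cast; linear_combination h4F)
    rw [hm', mul_neg, mul_one, neg_mul, neg_smul, neg_add_eq_zero] at h1
    refine smul_right_injective Ω[E⁄k] (pow_ne_zero 3 ht0) ?_
    simp only [← h1, smul_smul]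
    congr 1
    field_simp
  have key : 3 * Q.ord t + Q.ord j = 4 * Q.ord (t + 1) := by
    have h1 := congrArg Q.ord h
    rw [Q.ord_mul hj0 (pow_ne_zero _ ht0), ord_pow, ord_pow] at h1
    push_cast at h1
    linarith
  have hone : Q.ord (1 : E) = 0 := by rw [← map_one (algebraMap k E)]; exact ord_algebraMap Q 1
  have ht_ord : Q.ord t = 0 := by
    rcases lt_trichotomy (Q.ord t) 0 with hlt | heq | hgt
    · have : Q.ord (t + 1) = Q.ord t := ord_add_eq_of_lt Q ht0 (by rw [hone]; exact hlt)
      omega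
    · exact heq
    · have : Q.ord (t + 1) = 0 := by
        rw [add_comm, ord_add_eq_of_lt Q one_ne_zero (by rw [hone]; exact hgt), hone]
      omega
  have hdt : Q.ord (t + 1) - 1 ≤ Q.ordDifferential (D k E t) := by
    have hD1 : D k E (t + 1) = D k E t := by rw [map_add, Derivation.map_one_eq_zero, add_zero]
    have := sub_one_le_ordDifferential_D Q (f := t + 1) (hD1 ▸ ht)
    rwa [hD1] at this
  refine ⟨ht_ord, by omega, ?_⟩
  rw [hD, ordDifferential_smul_of_ne_zero Q (div_ne_zero hj0 ht0) ht, ord_div Q hj0 ht0]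
  omega

end

omit [NeZero N] in
/-- The hypotheses of the count, given a cube root of `j(q³)`. -/
theorem jRes_ord_two [CharP k 2] [IsFunctionField1 k (modularFunctionFieldFullC k N)] (h3 : 3 ∣ N)
    {x : modularFunctionFieldFullC k N}
    (hx : (x : LaurentSeries k) ^ 3 = qExpand k 3 (jqModC k))
    (Q : Place k (modularFunctionFieldFullC k N)) (hQ : 0 < Q.ord (jRes k N)) :
    5 * Q.ord (jRes k N) ≤ 4 * Q.ordDifferential (D k _ (jRes k N)) + 4 ∧
      (12 : ℤ) ∣ Q.ord (jRes k N) := by
  obtain ⟨t, h, ht, hjt⟩ := exists_sqrtRatio N k h3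
  obtain ⟨h0, h4, h5⟩ := ord_of_sqrtRatio h ht Q hQ
  refine ⟨h5, ?_⟩
  have ht0 : t ≠ 0 := fun e => ht (by rw [e, map_zero])
  have e : x ^ 3 = jRes k N * t ^ 2 := Subtype.ext (by rw [IntermediateField.coe_pow, hx, hjt])
  have h1 := congrArg Q.ord e
  rw [ord_pow, Q.ord_mul (fun e' => by simp [e'] at hQ) (pow_ne_zero _ ht0), ord_pow, h0] at h1
  push_cast at h1
  omega

end Fermat.Agent.TwoAdic.AtTwo
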