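import Fermat.Agent.EC.Mult.Ramification
import Fermat.Agent.Density.Conj
import Mathlib.FieldTheory.Galois.Basic
import Mathlib.LinearAlgebra.LinearIndependent.Basic
import Mathlib.RingTheory.RootsOfUnity.PrimitiveRoots

/-!
# Valuations of Kummer classes on inertia

For a cocycle `f` on inertia at `A` with values in `ℤ/m` twisted by the cyclotomic character, a
radical of `f` is `a ≠ 0` with `s a = ζ ^ f s * a`. The class of `v(a) ^ m` in the powers of
`v(q)` modulo `m` depends only on `f`.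
-/

set_option autoImplicit false

noncomputable section

open scoped Pointwise

namespace Fermat.Agent.TwoAdic.AtTwo

local notation "Qb" => AlgebraicClosure ℚ
local notation "Γℚ" => (AlgebraicClosure ℚ ≃ₐ[ℚ] AlgebraicClosure ℚ)

local instance isAlgebraicQbar_atTwoKummer : Algebra.IsAlgebraic ℚ Qb := AlgebraicClosure.isAlgebraic ℚ

local instance isAlgClosureQbar_atTwoKummer : IsAlgClosure ℚ Qb := ⟨inferInstance, inferInstance⟩

local instance isGaloisQbar_atTwoKummer : IsGalois ℚ Qb := IsAlgClosure.isGalois ℚ Qb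

variable {A : ValuationSubring Qb}

theorem conj_mem_inertia {σ s : Γℚ} (hσ : σ ∈ A.decompositionSubgroup ℚ)
    (hs : s ∈ A.inertiaSubgroupIn ℚ) : σ * s * σ⁻¹ ∈ A.inertiaSubgroupIn ℚ := by
  have hfix : σ⁻¹ • A = A := MulAction.mem_stabilizer_iff.1 (inv_mem hσ)
  have := Density.conj_inv_mem_inertiaSubgroupIn (A := A) (τ := s) (a := σ⁻¹) (by rwa [hfix])
  rwa [inv_inv] at this

variable {m : ℕ} {ζ : Qb}

/-- `ζ ^ x` for `x : ℤ/m`. -/
def zetaPow (ζ : Qb) (x : ZMod m) : Qb := ζ ^ x.val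

theorem zetaPow_ne_zero [NeZero m] (hζ : IsPrimitiveRoot ζ m) (x : ZMod m) :
    zetaPow ζ x ≠ 0 := pow_ne_zero _ (hζ.ne_zero (NeZero.ne m))

theorem zetaPow_natCast (hζ : IsPrimitiveRoot ζ m) (k : ℕ) : zetaPow ζ (k : ZMod m) = ζ ^ k := by
  rw [zetaPow, ZMod.val_natCast]
  conv_rhs => rw [← Nat.mod_add_div k m, pow_add, pow_mul, hζ.pow_eq_one, one_pow, mul_one]

theorem zetaPow_add [NeZero m] (hζ : IsPrimitiveRoot ζ m) (x y : ZMod m) :
    zetaPow ζ (x + y) = zetaPow ζ x * zetaPow ζ y := by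
  conv_lhs => rw [← ZMod.natCast_zmod_val x, ← ZMod.natCast_zmod_val y, ← Nat.cast_add,
    zetaPow_natCast hζ]
  rw [pow_add]
  rfl

theorem zetaPow_zero [NeZero m] : zetaPow ζ (0 : ZMod m) = 1 := by
  rw [zetaPow, ZMod.val_zero, pow_zero]

theorem zetaPow_natCast_mul [NeZero m] (hζ : IsPrimitiveRoot ζ m) (k : ℕ) (x : ZMod m) :
    zetaPow ζ ((k : ZMod m) * x) = zetaPow ζ x ^ k := by
  conv_lhs => rw [← ZMod.natCast_zmod_val x, ← Nat.cast_mul, zetaPow_natCast hζ]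
  rw [zetaPow, ← pow_mul, mul_comm]

theorem zetaPow_pow_self [NeZero m] (hζ : IsPrimitiveRoot ζ m) (x : ZMod m) :
    zetaPow ζ x ^ m = 1 := by
  rw [zetaPow, ← pow_mul, mul_comm, pow_mul, hζ.pow_eq_one, one_pow]

theorem apply_zetaPow [NeZero m] (hζ : IsPrimitiveRoot ζ m) {σ : Γℚ} {a : ℕ} (hσ : σ ζ = ζ ^ a)
    (x : ZMod m) : σ (zetaPow ζ x) = zetaPow ζ ((a : ZMod m) * x) := by
  rw [zetaPow_natCast_mul hζ, zetaPow, map_pow, hσ, ← pow_mul, ← pow_mul, mul_comm]

theorem valuation_zetaPow [NeZero m] (hζ : IsPrimitiveRoot ζ m) (x : ZMod m) :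
    A.valuation (zetaPow ζ x) = 1 := by
  refine (pow_eq_one_iff_of_nonneg zero_le (NeZero.ne m)).1 ?_
  rw [← map_pow, zetaPow_pow_self hζ, map_one]

variable (A ζ) in
/-- `a` is a radical of `f` of valuation index `k`. -/
structure IsRadical (q : ℕ) (f : Γℚ → ZMod m) (a : Qb) (k : ℤ) : Prop where
  ne_zero : a ≠ 0
  apply_eq : ∀ s ∈ A.inertiaSubgroupIn ℚ, s a = zetaPow ζ (f s) * a
  valuation_pow : A.valuation a ^ m = A.valuation (q : Qb) ^ k

variable {q : ℕ}

theorem IsRadical.congr {f g : Γℚ → ZMod m} {a : Qb} {k : ℤ} (h : IsRadical A ζ q f a k)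
    (hfg : ∀ s ∈ A.inertiaSubgroupIn ℚ, f s = g s) : IsRadical A ζ q g a k :=
  ⟨h.ne_zero, fun s hs => by rw [← hfg s hs]; exact h.apply_eq s hs, h.valuation_pow⟩

theorem IsRadical.pow [NeZero m] (hζ : IsPrimitiveRoot ζ m) {f : Γℚ → ZMod m} {a : Qb} {k : ℤ}
    (h : IsRadical A ζ q f a k) (n : ℕ) :
    IsRadical A ζ q (fun s => (n : ZMod m) * f s) (a ^ n) ((n : ℤ) * k) := by
  refine ⟨pow_ne_zero n h.ne_zero, fun s hs => ?_, ?_⟩
  · rw [map_pow, h.apply_eq s hs, mul_pow, zetaPow_natCast_mul hζ]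
  · rw [map_pow, ← pow_mul, mul_comm n m, pow_mul, h.valuation_pow, mul_comm (n : ℤ) k, zpow_mul,
      zpow_natCast]

theorem IsRadical.div [NeZero m] (hζ : IsPrimitiveRoot ζ m) {f g : Γℚ → ZMod m} {a b : Qb}
    {k l : ℤ} (h : IsRadical A ζ q f a k) (h' : IsRadical A ζ q g b l) (hq : q.Prime) :
    IsRadical A ζ q (fun s => f s - g s) (a / b) (k - l) := by
  refine ⟨div_ne_zero h.ne_zero h'.ne_zero, fun s hs => ?_, ?_⟩
  · have hfg : zetaPow ζ (f s) = zetaPow ζ (f s - g s) * zetaPow ζ (g s) := by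
      rw [← zetaPow_add hζ, sub_add_cancel]
    rw [map_div₀, h.apply_eq s hs, h'.apply_eq s hs, hfg]
    have := zetaPow_ne_zero hζ (g s)
    have := h'.ne_zero
    field_simp
  · rw [map_div₀, div_pow, h.valuation_pow, h'.valuation_pow,
      zpow_sub₀ (EC.Mult.valuation_natCast_ne_zero hq)]

/-- The index is well defined modulo `m`. -/
theorem IsRadical.dvd_sub [NeZero m] {f : Γℚ → ZMod m} {a b : Qb} {k l : ℤ}
    (hζ : IsPrimitiveRoot ζ m) (hq : q.Prime) (hA : A.LiesOverPrime q)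
    (h : IsRadical A ζ q f a k) (h' : IsRadical A ζ q f b l) : (m : ℤ) ∣ k - l := by
  have hr := h.div hζ h' hq
  obtain ⟨j, hj⟩ := EC.Mult.exists_zpow_of_inertia_fixed hq hA hr.ne_zero fun s hs => by
    rw [hr.apply_eq s hs, sub_self, zetaPow_zero, one_mul]
  have h1 := hr.valuation_pow
  rw [hj, ← zpow_natCast, ← zpow_mul] at h1
  exact ⟨j, by rw [← zpow_right_injective₀
    (zero_lt_iff.2 (EC.Mult.valuation_natCast_ne_zero hq))
    (EC.Mult.valuation_natCast_lt_one hA).ne h1, mul_comm]⟩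

/-- The image of a radical under an element of the decomposition group. -/
theorem IsRadical.map [NeZero m] (hζ : IsPrimitiveRoot ζ m) {f : Γℚ → ZMod m} {a : Qb} {k : ℤ}
    (h : IsRadical A ζ q f a k) {F : Γℚ} (hF : F ∈ A.decompositionSubgroup ℚ) {b : ℕ}
    (hb : F ζ = ζ ^ b) :
    IsRadical A ζ q (fun t => (b : ZMod m) * f (F⁻¹ * t * F)) (F a) k := by
  refine ⟨(map_ne_zero F).2 h.ne_zero, fun t ht => ?_, ?_⟩
  · have hs : F⁻¹ * t * F ∈ A.inertiaSubgroupIn ℚ := by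
      have := conj_mem_inertia (inv_mem hF) ht
      rwa [inv_inv] at this
    rw [← apply_zetaPow hζ hb, ← map_mul, ← h.apply_eq _ hs, ← AlgEquiv.mul_apply,
      ← AlgEquiv.mul_apply, show F * (F⁻¹ * t * F) = t * F by group]
  · rw [EC.Mult.valuation_apply hF, h.valuation_pow]

/-- Twisting by a constant changes the cocycle by a coboundary. -/
theorem IsRadical.mul_zetaPow [NeZero m] (hζ : IsPrimitiveRoot ζ m) {f g : Γℚ → ZMod m} {a : Qb}
    {k : ℤ} (h : IsRadical A ζ q f a k) (e : ZMod m)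
    (hg : ∀ s ∈ A.inertiaSubgroupIn ℚ, ∃ c : ℕ, s ζ = ζ ^ c ∧ g s = f s + ((c : ZMod m) * e - e)) :
    IsRadical A ζ q g (a * zetaPow ζ e) k := by
  refine ⟨mul_ne_zero h.ne_zero (zetaPow_ne_zero hζ e), fun s hs => ?_, ?_⟩
  · obtain ⟨c, hc, hgs⟩ := hg s hs
    have he : zetaPow ζ (g s) * zetaPow ζ e = zetaPow ζ (f s) * zetaPow ζ ((c : ZMod m) * e) := by
      rw [← zetaPow_add hζ, ← zetaPow_add hζ, hgs]
      congr 1
      ring
    rw [map_mul, h.apply_eq s hs, apply_zetaPow hζ hc]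
    linear_combination -a * he
  · rw [map_mul, valuation_zetaPow hζ, mul_one, h.valuation_pow]

open IntermediateField in
/-- **Hilbert 90 at inertia.** -/
theorem exists_isRadical [NeZero m] (hζ : IsPrimitiveRoot ζ m) (hq : q.Prime)
    (hA : A.LiesOverPrime q) (f : Γℚ → ZMod m)
    (hcoc : ∀ s ∈ A.inertiaSubgroupIn ℚ, ∀ t ∈ A.inertiaSubgroupIn ℚ, ∀ c : ℕ, s ζ = ζ ^ c →
      f (s * t) = f s + (c : ZMod m) * f t)
    (L₀ : IntermediateField ℚ Qb) [FiniteDimensional ℚ L₀]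
    (hL₀ : ∀ s ∈ A.inertiaSubgroupIn ℚ, (∀ x ∈ L₀, s x = x) → f s = 0) :
    ∃ a k, IsRadical A ζ q f a k := by
  classical
  have : FiniteDimensional ℚ ℚ⟮ζ⟯ :=
    adjoin.finiteDimensional (Algebra.IsIntegral.isIntegral ζ)
  let L : IntermediateField ℚ Qb := normalClosure ℚ ↥(L₀ ⊔ ℚ⟮ζ⟯) Qb
  have hL₀L : L₀ ≤ L := le_sup_left.trans (le_normalClosure _)
  have hζL : ζ ∈ L :=
    (le_sup_right (a := L₀)).trans (le_normalClosure _) (mem_adjoin_simple_self ℚ ζ)
  have : Normal ℚ L := normalClosure.normal ℚ ↥(L₀ ⊔ ℚ⟮ζ⟯) Qb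
  let G : Subgroup (L ≃ₐ[ℚ] L) :=
    (A.inertiaSubgroupIn ℚ).map (AlgEquiv.restrictNormalHom L)
  have hres : ∀ (s : Γℚ) (x : L),
      ((AlgEquiv.restrictNormalHom L s x : L) : Qb) = s x := fun s x =>
    AlgEquiv.restrictNormal_commutes s L x
  -- `f` factors through the restriction to `L`
  have hwell : ∀ s ∈ A.inertiaSubgroupIn ℚ, ∀ t ∈ A.inertiaSubgroupIn ℚ,
      AlgEquiv.restrictNormalHom L s = AlgEquiv.restrictNormalHom L t → f s = f t := by
    intro s hs t ht hst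
    obtain ⟨c, -, hc⟩ := hζ.eq_pow_of_pow_eq_one
      (ξ := t ζ) (by rw [← map_pow, hζ.pow_eq_one, map_one])
    have hfix : ∀ x ∈ L, (t⁻¹ * s) x = x := fun x hx => by
      have h1 : s x = t x := by
        have := hres s ⟨x, hx⟩
        rw [hst, hres t ⟨x, hx⟩] at this
        exact this.symm
      rw [AlgEquiv.mul_apply, h1, ← AlgEquiv.mul_apply, inv_mul_cancel, AlgEquiv.one_apply]
    have h := hcoc t ht (t⁻¹ * s) (mul_mem (inv_mem ht) hs) c hc.symm
    rwa [mul_inv_cancel_left, hL₀ _ (mul_mem (inv_mem ht) hs) fun x hx => hfix x (hL₀L hx),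
      mul_zero, add_zero] at h
  have hG : ∀ g : G, ∃ s ∈ A.inertiaSubgroupIn ℚ, AlgEquiv.restrictNormalHom L s = g := fun g => g.2
  choose lift hliftI hlift using hG
  let coef : G → L := fun g => (⟨ζ, hζL⟩ : L) ^ (f (lift g)).val
  have hcoef : ∀ g, (coef g : Qb) = zetaPow ζ (f (lift g)) := fun g => by simp [coef, zetaPow]
  -- independence of characters
  have hli := (linearIndependent_monoidHom L L).comp
    (fun g : G => ((g : L ≃ₐ[ℚ] L) : L →* L)) fun g g' h => Subtype.ext (AlgEquiv.ext fun x => by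
      exact DFunLike.congr_fun h x)
  obtain ⟨z, hz⟩ : ∃ z : L, ∑ g : G, coef g * (g : L ≃ₐ[ℚ] L) z ≠ 0 := by
    by_contra! hall
    have h1 : (1 : G) ∈ Finset.univ := Finset.mem_univ _
    have h := linearIndependent_iff'.1 hli Finset.univ coef (funext fun z => by
      simpa [Finset.sum_apply, Pi.smul_apply, smul_eq_mul] using hall z) 1 h1
    exact zetaPow_ne_zero hζ (f (lift 1)) (by rw [← hcoef 1, h]; rfl)
  set b : Qb := ∑ g : G, zetaPow ζ (f (lift g)) * lift g (z : Qb) with hb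
  have hbL : b = ((∑ g : G, coef g * (g : L ≃ₐ[ℚ] L) z : L) : Qb) := by
    rw [hb, AddSubmonoidClass.coe_finsetSum]
    refine Finset.sum_congr rfl fun g _ => ?_
    rw [MulMemClass.coe_mul, hcoef, ← hlift g, hres]
  have hb0 : b ≠ 0 := by
    rw [hbL]
    exact fun h => hz (Subtype.ext h)
  have hsb : ∀ s ∈ A.inertiaSubgroupIn ℚ, zetaPow ζ (f s) * s b = b := by
    intro s hs
    obtain ⟨c, -, hc⟩ := hζ.eq_pow_of_pow_eq_one
      (ξ := s ζ) (by rw [← map_pow, hζ.pow_eq_one, map_one])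
    let gs : G := ⟨AlgEquiv.restrictNormalHom L s, ⟨s, hs, rfl⟩⟩
    rw [hb, map_sum, Finset.mul_sum]
    refine Fintype.sum_equiv (Equiv.mulLeft gs) _ _ fun g => ?_
    have heq : AlgEquiv.restrictNormalHom L (s * lift g)
        = AlgEquiv.restrictNormalHom L (lift (gs * g)) := by
      rw [map_mul, hlift, hlift]
      rfl
    have hf : f (lift (gs * g)) = f s + (c : ZMod m) * f (lift g) := by
      rw [← hwell _ (mul_mem hs (hliftI g)) _ (hliftI _) heq]
      exact hcoc s hs _ (hliftI g) c hc.symm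
    have hz' : lift (gs * g) (z : Qb) = s (lift g (z : Qb)) := by
      rw [← hres, ← heq, hres, AlgEquiv.mul_apply]
    rw [Equiv.coe_mulLeft, hf, hz', zetaPow_add hζ, map_mul, apply_zetaPow hζ hc.symm, mul_assoc]
  have hfix : ∀ s ∈ A.inertiaSubgroupIn ℚ, s b⁻¹ = zetaPow ζ (f s) * b⁻¹ := by
    intro s hs
    have h := hsb s hs
    have hz := zetaPow_ne_zero hζ (f s)
    rw [map_inv₀]
    have h0 : s b ≠ 0 := (map_ne_zero s).2 hb0
    field_simp
    linear_combination -h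
  obtain ⟨k, hk⟩ := EC.Mult.exists_zpow_of_inertia_fixed hq hA
    (pow_ne_zero m (inv_ne_zero hb0)) fun s hs => by
      rw [map_pow, hfix s hs, mul_pow, zetaPow_pow_self hζ, one_mul]
  exact ⟨b⁻¹, k, inv_ne_zero hb0, hfix, by rw [← map_pow, hk]⟩

end Fermat.Agent.TwoAdic.AtTwo
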