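import Mathlib.LinearAlgebra.Basis.Defs
import Mathlib.LinearAlgebra.Dimension.Free
import Mathlib.RingTheory.DiscreteValuationRing.Basic
import Mathlib.Data.Fin.VecNotation

/-!
# The line cut out by the displacements of inertia

`V` is free of rank two over a discrete valuation ring with `2` in the maximal ideal, `W` a
subgroup containing all `ρ s x - x` for `s` in `I`, and some `x₀` has no `2`-power multiple in
`W`. Then all displacements lie in one saturated line, stable under the normaliser of `I`.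
-/

set_option autoImplicit false

noncomputable section

open IsLocalRing

namespace Fermat.Agent.TwoAdic.AtTwo

/-- In a discrete valuation ring every nonzero element divides a power of a nonzero element of
the maximal ideal. -/
theorem exists_dvd_pow_of_mem_maximalIdeal {O : Type*} [CommRing O] [IsDomain O]
    [IsDiscreteValuationRing O] {a t : O} (ha : a ≠ 0) (ht : t ∈ maximalIdeal O) :
    ∃ c : ℕ, a ∣ t ^ c := by
  obtain ⟨π, hπ⟩ := IsDiscreteValuationRing.exists_irreducible O
  obtain ⟨m, hm⟩ := IsDiscreteValuationRing.associated_pow_irreducible ha hπ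
  rw [(IsDiscreteValuationRing.irreducible_iff_uniformizer _).1 hπ, Ideal.mem_span_singleton] at ht
  exact ⟨m, hm.dvd.trans (pow_dvd_pow_of_dvd ht m)⟩

variable {O : Type*} [CommRing O] {V : Type*} [AddCommGroup V] [Module O V]

/-- Replacing the first vector of a basis by a vector with unit first coordinate. -/
theorem exists_basis_zero_eq (e : Module.Basis (Fin 2) O V) {v : V}
    (hv : IsUnit (e.repr v 0)) : ∃ b : Module.Basis (Fin 2) O V, b 0 = v := by
  obtain ⟨a, ha⟩ := hv
  set c := e.repr v 1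
  let f : V ≃ₗ[O] (Fin 2 → O) :=
    { toFun := fun x => ![(↑a⁻¹ : O) * e.repr x 0, e.repr x 1 - c * ((↑a⁻¹ : O) * e.repr x 0)]
      invFun := fun g => ((a : O) * g 0) • e 0 + (c * g 0 + g 1) • e 1
      map_add' := fun x y => by ext i; fin_cases i <;> simp <;> ring
      map_smul' := fun t x => by ext i; fin_cases i <;> simp <;> ring
      left_inv := fun x => by
        conv_rhs => rw [← e.sum_repr x, Fin.sum_univ_two]
        simp [← mul_assoc]
      right_inv := fun g => by
        ext i; fin_cases i <;> simp [← mul_assoc] }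
  refine ⟨Module.Basis.ofEquivFun f, f.injective ?_⟩
  rw [Module.Basis.coe_ofEquivFun, LinearEquiv.apply_symm_apply]
  ext i
  fin_cases i <;> simp [f, ← ha, c]

variable [IsDomain O] [IsDiscreteValuationRing O]

/-- Every nonzero vector is a multiple of a vector which starts a basis. -/
theorem exists_basis_smul_eq (e : Module.Basis (Fin 2) O V) {v : V} (hv : v ≠ 0) :
    ∃ (b : Module.Basis (Fin 2) O V) (g : O), g ≠ 0 ∧ v = g • b 0 := by
  have hsplit : ∀ (e' : Module.Basis (Fin 2) O V), e'.repr v 0 ≠ 0 →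
      e'.repr v 0 ∣ e'.repr v 1 → ∃ (b : Module.Basis (Fin 2) O V) (g : O),
        g ≠ 0 ∧ v = g • b 0 := by
    intro e' h0 ⟨t, ht⟩
    obtain ⟨b, hb⟩ := exists_basis_zero_eq e' (v := e' 0 + t • e' 1) (by simp)
    refine ⟨b, e'.repr v 0, h0, ?_⟩
    rw [hb, smul_add, smul_smul, ← ht]
    conv_lhs => rw [← e'.sum_repr v, Fin.sum_univ_two]
  rcases ValuationRing.dvd_total (e.repr v 0) (e.repr v 1) with h | h
  · refine hsplit e (fun h0 => hv ?_) h
    rw [h0, zero_dvd_iff] at h
    rw [← e.sum_repr v, Fin.sum_univ_two, h0, h, zero_smul, zero_smul, add_zero]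
  · refine hsplit (e.reindex (Equiv.swap 0 1)) (fun h1 => hv ?_) (by simpa using h)
    rw [Module.Basis.repr_reindex_apply, Equiv.symm_swap, Equiv.swap_apply_left] at h1
    rw [h1, zero_dvd_iff] at h
    rw [← e.sum_repr v, Fin.sum_univ_two, h1, h, zero_smul, zero_smul, add_zero]

/-- **The line.** -/
theorem exists_line {G : Type*} [Group G] (ρ : G →* Module.End O V)
    (e : Module.Basis (Fin 2) O V) (D I : Subgroup G)
    (hconj : ∀ σ ∈ D, ∀ s ∈ I, σ * s * σ⁻¹ ∈ I) (h2 : (2 : O) ∈ maximalIdeal O)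
    (W : AddSubgroup V) (hW : ∀ s ∈ I, ∀ x, ρ s x - x ∈ W) {x₀ : V}
    (hx₀ : ∀ c : ℕ, 2 ^ c • x₀ ∉ W) (hne : ∃ s ∈ I, ρ s ≠ 1) :
    ∃ b : Module.Basis (Fin 2) O V,
      (∀ σ ∈ D, ∀ x ∈ O ∙ b 0, ρ σ x ∈ O ∙ b 0) ∧
        ∀ s ∈ I, ∀ x, ρ s x - x ∈ O ∙ b 0 := by
  let N : Submodule O V :=
    { carrier := {x | ∀ a : O, a • x ∈ W}
      zero_mem' := fun a => by rw [smul_zero]; exact W.zero_mem
      add_mem' := fun hx hy a => by rw [smul_add]; exact W.add_mem (hx a) (hy a)
      smul_mem' := fun t x hx a => by rw [smul_smul]; exact hx _ }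
  have hdisp : ∀ s ∈ I, ∀ x, ρ s x - x ∈ N := fun s hs x a => by
    rw [smul_sub, ← map_smul]
    exact hW s hs _
  obtain ⟨s, hs, hsne⟩ := hne
  obtain ⟨x, hx⟩ : ∃ x, ρ s x - x ≠ 0 := by
    by_contra! h
    exact hsne (LinearMap.ext fun x => sub_eq_zero.1 (h x))
  set v := ρ s x - x with hv
  obtain ⟨b, g, hg, hvb⟩ := exists_basis_smul_eq e hx
  have key : ∀ w ∈ N, w ∈ O ∙ b 0 := by
    intro w hw
    by_cases h1 : b.repr w 1 = 0
    · refine Submodule.mem_span_singleton.2 ⟨b.repr w 0, ?_⟩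
      conv_rhs => rw [← b.sum_repr w, Fin.sum_univ_two, h1, zero_smul, add_zero]
    · exfalso
      have hmem : (g * b.repr w 1) • x₀ ∈ N := by
        have he : (g * b.repr w 1) • x₀ =
            (b.repr x₀ 0 * b.repr w 1 - b.repr x₀ 1 * b.repr w 0) • v
              + (g * b.repr x₀ 1) • w := by
          conv_lhs => rw [← b.sum_repr x₀, Fin.sum_univ_two]
          conv_rhs => rw [hvb, ← b.sum_repr w, Fin.sum_univ_two]
          simp only [Fin.isValue, smul_add, smul_smul, Module.Basis.repr_self, map_add, map_smul,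
            Finsupp.coe_add, Finsupp.coe_smul, Pi.add_apply, Pi.smul_apply, Finsupp.single_eq_same,
            smul_eq_mul, mul_one, ne_eq, one_ne_zero, zero_ne_one, not_false_eq_true,
            Finsupp.single_eq_of_ne, mul_zero, add_zero, zero_add]
          module
        rw [he]
        exact N.add_mem (N.smul_mem _ (hdisp s hs x)) (N.smul_mem _ hw)
      obtain ⟨c, t, ht⟩ := exists_dvd_pow_of_mem_maximalIdeal (mul_ne_zero hg h1) h2
      refine hx₀ c ?_
      have h := hmem t
      rw [smul_smul, mul_comm, ← ht] at h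
      rwa [← Nat.cast_smul_eq_nsmul O, Nat.cast_pow, Nat.cast_ofNat]
  refine ⟨b, fun σ hσ w hw => ?_, fun t ht y => key _ (hdisp t ht y)⟩
  obtain ⟨a, rfl⟩ := Submodule.mem_span_singleton.1 hw
  have hv' : ρ σ v ∈ O ∙ b 0 := by
    have he : ρ σ v = ρ (σ * s * σ⁻¹) (ρ σ x) - ρ σ x := by
      rw [hv, map_sub, ← Module.End.mul_apply, ← Module.End.mul_apply, ← map_mul, ← map_mul,
        inv_mul_cancel_right]
    rw [he]
    exact key _ (hdisp _ (hconj σ hσ s hs) _)
  rw [map_smul]
  refine Submodule.smul_mem _ _ ?_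
  obtain ⟨a', ha'⟩ := Submodule.mem_span_singleton.1 hv'
  rw [hvb, map_smul] at ha'
  have h1 := congrArg (fun z => b.repr z 1) ha'
  simp only [Fin.isValue, map_smul, Module.Basis.repr_self, Finsupp.coe_smul, Pi.smul_apply,
    ne_eq, one_ne_zero, not_false_eq_true, Finsupp.single_eq_of_ne, smul_eq_mul,
    mul_zero] at h1
  refine Submodule.mem_span_singleton.2 ⟨b.repr (ρ σ (b 0)) 0, ?_⟩
  conv_rhs => rw [← b.sum_repr (ρ σ (b 0)), Fin.sum_univ_two,
    (mul_eq_zero.1 h1.symm).resolve_left hg, zero_smul, add_zero]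

end Fermat.Agent.TwoAdic.AtTwo
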