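import Fermat.Agent.LevelP.Model.Local

/-!
# Residual orders of torsion classes

For two-component data and a class `x` killed by `n`, with `(f) = n D` normalised along the first
component, `resHom M n x` is the family of the orders modulo `n` of the residue of `f`. It is a
homomorphism, it is unchanged by inertia, and it is compatible with multiplication.

Owner: helper34.
-/

set_option autoImplicit false

noncomputable section

namespace Fermat.Agent.TwoAdic.AtTwo

open AlgebraicCurve Fermat.Agent.Curve IsLocalRing Fermat.Agent.LevelP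

local notation "Qb" => AlgebraicClosure ℚ
local notation "Γℚ" => (AlgebraicClosure ℚ ≃ₐ[ℚ] AlgebraicClosure ℚ)

variable {p : ℕ} {A : ValuationSubring Qb} {F : Type*} [Field F] [Algebra Qb F]
  [IsFunctionField1 Qb F] {Fb : Type*} [Field Fb] [Algebra (ResidueField A) Fb]
  (M : TwoCompData p A F Fb)

/-- A normalised function with divisor `n • D`. -/
def IsResRep (n : ℕ) (D : Divisor Qb F) (f : F) : Prop :=
  f ≠ 0 ∧ (∀ P, ((n : ℤ) • D) P = P.ord f) ∧ (M.V false).valuation f = 1

omit [IsFunctionField1 Qb F] in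
/-- Functions can be normalised along the first component by a constant. -/
theorem exists_normalised {f : F} (hf : f ≠ 0) : ∃ c : Qb, c ≠ 0 ∧
    (M.V false).valuation (algebraMap Qb F c * f) = 1 := by
  obtain ⟨c, hc, -, hv⟩ := M.exists_scale false ⊥ bot_le f hf fun σ hσ => by
    rw [Subgroup.mem_bot.1 hσ, map_one, one_smul]
  exact ⟨c, hc, hv⟩

omit [IsFunctionField1 Qb F] in
theorem exists_isResRep {n : ℕ} {D : Divisor Qb F} (h : ((n : ℤ) • D).IsPrincipal) :
    ∃ f, IsResRep M n D f := by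
  obtain ⟨f, hf, hord⟩ := h
  obtain ⟨c, hc, hv⟩ := exists_normalised M hf
  have hc' : algebraMap Qb F c ≠ 0 := (map_ne_zero _).2 hc
  exact ⟨_, mul_ne_zero hc' hf,
    fun P => by rw [P.ord_mul hc' hf, ord_algebraMap, zero_add, hord P], hv⟩

/-- The order at `Q` modulo `n` of the residue of a normalised function with divisor `n • D`. -/
def resDiv (n : ℕ) (D : Divisor Qb F) (Q : Place (ResidueField A) Fb) : ZMod n :=
  letI := Classical.propDecidable
  if h : ∃ f, IsResRep M n D f then (Q.ord (M.residueAt false h.choose) : ZMod n) else 0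

/-- The choice of the function does not matter. -/
theorem ord_residueAt_eq {n : ℕ} {D : Divisor Qb F} {f f' : F} (h : IsResRep M n D f)
    (h' : IsResRep M n D f') (Q : Place (ResidueField A) Fb) :
    Q.ord (M.residueAt false f) = Q.ord (M.residueAt false f') := by
  obtain ⟨a, ha⟩ := minpoly.mem_range_of_degree_eq_one Qb (f / f')
    (IsAlgClosed.degree_eq_one_of_irreducible _ (minpoly.irreducible
      (isAlgebraic_of_forall_ord_nonneg (K := Qb) (f := f / f') fun P => by
        rw [ord_div P h.1 h'.1, ← h.2.1 P, ← h'.2.1 P, sub_self]).isIntegral))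
  have hf : f = algebraMap Qb F a * f' := by rw [ha, div_mul_cancel₀ _ h'.1]
  have hv : (M.V false).valuation (algebraMap Qb F a) = 1 := by
    have := h.2.2
    rwa [hf, map_mul, h'.2.2, mul_one] at this
  have haA : a ∈ A := (M.algebraMap_mem_iff false a).1 (M.mem_of_valuation_eq_one hv)
  have hne : M.residueAt false (algebraMap Qb F a) ≠ 0 := TwoCompData.residueAt_ne_zero hv
  rw [hf, TwoCompData.residueAt_mul (M.mem_of_valuation_eq_one hv)
      (M.mem_of_valuation_eq_one h'.2.2),
    Q.ord_mul hne (TwoCompData.residueAt_ne_zero h'.2.2),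
    M.residueAt_algebraMap false haA, ord_algebraMap, zero_add]

theorem resDiv_eq {n : ℕ} {D : Divisor Qb F} {f : F} (h : IsResRep M n D f)
    (Q : Place (ResidueField A) Fb) :
    resDiv M n D Q = (Q.ord (M.residueAt false f) : ZMod n) := by
  rw [resDiv, dif_pos ⟨f, h⟩, ord_residueAt_eq M (Exists.choose_spec ⟨f, h⟩) h]

omit [IsFunctionField1 Qb F] in
theorem IsResRep.add {n : ℕ} {D E : Divisor Qb F} {f g : F} (hD : IsResRep M n D f)
    (hE : IsResRep M n E g) : IsResRep M n (D + E) (f * g) :=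
  ⟨mul_ne_zero hD.1 hE.1, fun P => by
    rw [zsmul_add, Finsupp.add_apply, hD.2.1 P, hE.2.1 P, P.ord_mul hD.1 hE.1],
    by rw [map_mul, hD.2.2, hE.2.2, mul_one]⟩

theorem resDiv_add {n : ℕ} {D E : Divisor Qb F} (hD : ((n : ℤ) • D).IsPrincipal)
    (hE : ((n : ℤ) • E).IsPrincipal) (Q : Place (ResidueField A) Fb) :
    resDiv M n (D + E) Q = resDiv M n D Q + resDiv M n E Q := by
  obtain ⟨f, hf⟩ := exists_isResRep M hD
  obtain ⟨g, hg⟩ := exists_isResRep M hE
  rw [resDiv_eq M (hf.add M hg), resDiv_eq M hf, resDiv_eq M hg,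
    TwoCompData.residueAt_mul (M.mem_of_valuation_eq_one hf.2.2)
      (M.mem_of_valuation_eq_one hg.2.2),
    Q.ord_mul (TwoCompData.residueAt_ne_zero hf.2.2) (TwoCompData.residueAt_ne_zero hg.2.2),
    Int.cast_add]

theorem resDiv_of_isPrincipal (n : ℕ) {D : Divisor Qb F} (hD : D.IsPrincipal)
    (Q : Place (ResidueField A) Fb) : resDiv M n D Q = 0 := by
  obtain ⟨h, hh⟩ := exists_isResRep M (n := 1) (D := D) (by rwa [Nat.cast_one, one_zsmul])
  have hn : IsResRep M n D (h ^ n) := ⟨pow_ne_zero n hh.1, fun P => by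
    rw [ord_pow, ← hh.2.1 P, Nat.cast_one, one_zsmul, Finsupp.smul_apply, smul_eq_mul],
    by rw [map_pow, hh.2.2, one_pow]⟩
  rw [resDiv_eq M hn, TwoCompData.residueAt_pow (M.mem_of_valuation_eq_one hh.2.2), ord_pow,
    Int.cast_mul, Int.cast_natCast, ZMod.natCast_self, zero_mul]

theorem resDiv_congr {n : ℕ} {D E : Divisor Qb F} (hD : ((n : ℤ) • D).IsPrincipal)
    (h : (E - D).IsPrincipal) (Q : Place (ResidueField A) Fb) :
    resDiv M n E Q = resDiv M n D Q := by
  have h' : ((n : ℤ) • (E - D)).IsPrincipal :=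
    Divisor.mem_principal.1 ((Divisor.principal (K := Qb) (F := F)).zsmul_mem
      (Divisor.mem_principal.2 h) (n : ℤ))
  rw [← add_sub_cancel D E, resDiv_add M hD h', resDiv_of_isPrincipal M n h, add_zero]

omit [IsFunctionField1 Qb F] in
theorem IsResRep.act {n : ℕ} {D : Divisor Qb F} {f : F} (h : IsResRep M n D f) {σ : Γℚ}
    (hσ : σ ∈ A.inertiaSubgroupIn ℚ) : IsResRep M n (M.act σ • D) (M.act σ • f) := by
  refine ⟨(smul_ne_zero_iff_ne _).2 h.1, fun P => ?_, le_antisymm ?_ ?_⟩
  · rw [show (n : ℤ) • (M.act σ • D) = M.act σ • ((n : ℤ) • D) from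
      ((DistribSMul.toAddMonoidHom (Divisor Qb F) (M.act σ)).map_zsmul (n : ℤ) D).symm,
      SemilinearAut.divisor_smul_apply, h.2.1]
    have h' := SemilinearAut.ord_smul (M.act σ) ((M.act σ)⁻¹ • P) f
    rwa [smul_inv_smul, eq_comm] at h'
  · exact ((M.V false).valuation_le_one_iff _).2
      ((M.act_mem_iff false σ hσ f).2 (M.mem_of_valuation_eq_one h.2.2))
  · have h' := ((M.V false).valuation_le_one_iff _).2
      ((M.act_mem_iff false σ hσ f⁻¹).2
        (M.mem_of_valuation_eq_one (by rw [map_inv₀, h.2.2, inv_one])))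
    rw [smul_inv'', map_inv₀] at h'
    exact (inv_le_one₀ (zero_lt_iff.2 ((map_ne_zero _).2 ((smul_ne_zero_iff_ne _).2 h.1)))).1 h'

theorem resDiv_act {n : ℕ} {D : Divisor Qb F} (hD : ((n : ℤ) • D).IsPrincipal) {σ : Γℚ}
    (hσ : σ ∈ A.inertiaSubgroupIn ℚ) (Q : Place (ResidueField A) Fb) :
    resDiv M n (M.act σ • D) Q = resDiv M n D Q := by
  obtain ⟨f, hf⟩ := exists_isResRep M hD
  rw [resDiv_eq M (hf.act M hσ), resDiv_eq M hf,
    TwoCompData.residueAt_act hσ (M.mem_of_valuation_eq_one hf.2.2)]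

omit [IsFunctionField1 Qb F] [Algebra (ResidueField A) Fb] in
theorem isPrincipal_nsmul_rep {n : ℕ} {D : Divisor.degZero (K := Qb) (F := F)}
    (h : (Pic0.mk D) ∈ Pic0.torsion Qb F n) :
    ((n : ℤ) • (D : Divisor Qb F)).IsPrincipal := by
  rw [Pic0.mem_torsion, Pic0.mk, ← QuotientAddGroup.mk_zsmul,
    QuotientAddGroup.eq_zero_iff, AddSubgroup.mem_addSubgroupOf] at h
  simpa using Divisor.mem_principal.1 h

/-- Residual orders modulo `n` of the classes killed by `n`. -/
def resHom (n : ℕ) : Pic0.torsion Qb F n →+ (Place (ResidueField A) Fb → ZMod n) :=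
  AddMonoidHom.mk'
    (fun x => resDiv M n ((Pic0.mk_surjective (x : Pic0 Qb F)).choose : Divisor Qb F))
    fun x y => funext fun Q => by
      set a := Pic0.mk_surjective (x : Pic0 Qb F)
      set b := Pic0.mk_surjective (y : Pic0 Qb F)
      set c := Pic0.mk_surjective ((x + y : Pic0.torsion Qb F n) : Pic0 Qb F)
      have hx := isPrincipal_nsmul_rep (D := a.choose) (n := n) (a.choose_spec.symm ▸ x.2)
      have hy := isPrincipal_nsmul_rep (D := b.choose) (n := n) (b.choose_spec.symm ▸ y.2)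
      show _ = resDiv M n _ Q + resDiv M n _ Q
      rw [← resDiv_add M hx hy]
      refine resDiv_congr M ?_ ?_ Q
      · rw [zsmul_add]
        exact Divisor.mem_principal.1 ((Divisor.principal (K := Qb) (F := F)).add_mem hx hy)
      · have h : Pic0.mk c.choose = Pic0.mk (a.choose + b.choose) := by
          rw [c.choose_spec, Pic0.mk_add, a.choose_spec, b.choose_spec]
          rfl
        rw [eq_comm, Pic0.mk, Pic0.mk, QuotientAddGroup.eq, AddSubgroup.mem_addSubgroupOf] at h
        convert Divisor.mem_principal.1 h using 1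
        simp only [AddSubgroup.coe_add, NegMemClass.coe_neg]
        abel

theorem resHom_mk {n : ℕ} (x : Pic0.torsion Qb F n) (D : Divisor.degZero (K := Qb) (F := F))
    (hx : Pic0.mk D = (x : Pic0 Qb F)) (Q : Place (ResidueField A) Fb) :
    resHom M n x Q = resDiv M n (D : Divisor Qb F) Q := by
  set a := Pic0.mk_surjective (x : Pic0 Qb F)
  show resDiv M n (a.choose : Divisor Qb F) Q = _
  refine resDiv_congr M (isPrincipal_nsmul_rep (hx.symm ▸ x.2)) ?_ Q
  have h : Pic0.mk D = Pic0.mk a.choose := by rw [hx, a.choose_spec]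
  rw [Pic0.mk, Pic0.mk, QuotientAddGroup.eq, AddSubgroup.mem_addSubgroupOf] at h
  simpa [neg_add_eq_sub] using Divisor.mem_principal.1 h

/-- **Inertia does not change residual orders.** -/
theorem resHom_act {n : ℕ} {σ : Γℚ} (hσ : σ ∈ A.inertiaSubgroupIn ℚ)
    (x : Pic0.torsion Qb F n) : resHom M n (M.act σ • x) = resHom M n x := by
  funext Q
  obtain ⟨D, hD⟩ := Pic0.mk_surjective (x : Pic0 Qb F)
  rw [resHom_mk M _ (SemilinearAut.degZeroSMulHom (M.act σ) D)
      (by rw [SemilinearAut.coe_torsion_smul, ← hD, SemilinearAut.pic0_smul_mk]),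
    resHom_mk M x D hD]
  exact resDiv_act M (isPrincipal_nsmul_rep (hD.symm ▸ x.2)) hσ Q

/-- The residual orders of `m • x` modulo `n` are those of `x` modulo `n * m`, reduced. -/
theorem resHom_nsmul {n m : ℕ} (x : Pic0.torsion Qb F (n * m)) (y : Pic0.torsion Qb F n)
    (h : (y : Pic0 Qb F) = m • (x : Pic0 Qb F)) (Q : Place (ResidueField A) Fb) :
    resHom M n y Q = ZMod.castHom (dvd_mul_right n m) (ZMod n) (resHom M (n * m) x Q) := by
  obtain ⟨D, hD⟩ := Pic0.mk_surjective (x : Pic0 Qb F)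
  obtain ⟨f, hf⟩ := exists_isResRep M (isPrincipal_nsmul_rep (hD.symm ▸ x.2 :
    Pic0.mk D ∈ Pic0.torsion Qb F (n * m)))
  have hf' : IsResRep M n (m • (D : Divisor Qb F)) f := ⟨hf.1, fun P => by
    rw [← hf.2.1 P, ← natCast_zsmul (D : Divisor Qb F) m, ← mul_zsmul, Nat.cast_mul, mul_comm],
    hf.2.2⟩
  rw [resHom_mk M y (m • D) (by rw [h, ← hD]; rfl), resHom_mk M x D hD, resDiv_eq M hf,
    map_intCast, AddSubgroupClass.coe_nsmul, resDiv_eq M hf']

end Fermat.Agent.TwoAdic.AtTwo
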