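import Fermat.Agent.LevelP.X0.Unit
import Fermat.Agent.TwoAdic.AtTwo.JOrdTwo
import Fermat.Agent.TwoAdic.AtTwo.JRatioTwo
import Fermat.Agent.TwoAdic.AtTwo.CubeRootJ

/-!
# The residue of `Δ(τ)/Δ(2τ)` on `X₀(M)` in characteristic `2`, `9 ∣ M`

It is `j̄`, whose zeros all have multiplicity `12`.
-/

set_option autoImplicit false
set_option synthInstance.maxHeartbeats 400000
set_option maxHeartbeats 800000

noncomputable section

namespace Fermat.Agent.TwoAdic.AtTwo

open AlgebraicCurve ModularCurve IsLocalRing Fermat.Agent.Curve Fermat.Agent.Reduction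
open Fermat.Agent.LevelP

local notation "Qb" => AlgebraicClosure ℚ

local instance fact_prime_two : Fact (Nat.Prime 2) := ⟨Nat.prime_two⟩

variable (A : ValuationSubring Qb) (M : ℕ) [NeZero M] (hpM : ¬ 2 ∣ M) (hA : A.LiesOverPrime 2)

include hpM hA in
/-- **Multiplicity `12` at the supersingular points.** -/
theorem jRes_ord_eq_twelve (h9 : 9 ∣ M)
    (Q : Place (ResidueField A) (modularFunctionFieldFullC (ResidueField A) M))
    (hQ : 0 < Q.ord (jRes (ResidueField A) M)) : Q.ord (jRes (ResidueField A) M) = 12 := by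
  have : IsAlgClosed (ResidueField A) := EC.isAlgClosed_residueField A
  have : CharP (ResidueField A) 2 := EC.charP_residueField A Nat.prime_two hA
  have h3 : 3 ∣ M := (by norm_num : 3 ∣ 9).trans h9
  obtain ⟨x, hx⟩ := exists_cubeRoot hpM A hA h9
  exact ord_eq_twelve (gaussDataX0 M hpM A hA) (j := jBar M) (jBar_jRes_mem M A)
    (transcendental_jRes M _) (finrank_jRes M hpM A hA) (isSeparable_jRes M hpM A hA)
    (jBar_ord_le_three M) (jBar_ord_le_two M) (fun _ h0 h1 => jBar_ord_eq_one M h0 h1)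
    (genusFF_le_modL M hpM A hA ⟨fun _ => h3, by omega⟩)
    (fun P hP => (jRes_ord_two h3 hx P hP).1) (fun P hP => (jRes_ord_two h3 hx P hP).2) Q hQ

variable [IsAlgClosed (ResidueField A)]

include hpM hA in
/-- The residue of the unit is `j̄`. -/
theorem red_unitW_eq_jRes (h : X0.unitW 2 M ∈ X0.V A 2 M false) :
    X0.red A 2 M hpM hA false ⟨X0.unitW 2 M, h⟩ = X0.jResM A M := by
  have : CharP (ResidueField A) 2 := EC.charP_residueField A Nat.prime_two hA
  refine X0.red_eq_of_hasGaussRed A 2 M hpM hA false h ?_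
  rw [X0.toFirst_false]
  convert! X0.hasGaussRed_unitW A 2 M using 2
  set k := ResidueField A
  have hk2 : (2 : k) = 0 := CharP.cast_eq_zero k 2
  have hjd := SmallId.jqModC_mul_deltaSeries_eq_one (R := k)
    (by linear_combination (120 : k) * hk2)
  have hjd2 : qExpand k 2 (jqModC k) * qExpand k 2 (Igusa.deltaSeries k) = 1 := by
    rw [← map_mul, hjd, map_one]
  have hne : qExpand k 2 (Igusa.deltaSeries k) ≠ 0 := right_ne_zero_of_mul_eq_one hjd2
  refine mul_right_cancel₀ hne ?_
  rw [X0.wSeries_mul, X0.jResM]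
  have hfrob : qExpand k 2 (Igusa.deltaSeries k) = Igusa.deltaSeries k ^ 2 :=
    by rw [BadPrime.pow_char_eq_qExpand (q := 2), Igusa.coeffMap_deltaSeries]
  rw [hfrob, pow_two, ← mul_assoc, hjd, one_mul]

end Fermat.Agent.TwoAdic.AtTwo
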